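import Fermat.Agent.LT.Kernel

/-!
# Twisted classes

`G` acts on `Z`, `σ : G ≃* G`, `τ : Z → Z` with `τ (g • z) = σ g • τ z`. The group `G` acts on
`Tw σ = G` by twisted conjugation `g • δ = g δ σ(g)⁻¹`; the twisted diagonal of an automorphic kernel
is a sum over `Tw σ`, and its integral over the quotient is the sum over the twisted classes of the
orbital integrals.
-/

set_option autoImplicit false

noncomputable section

open MeasureTheory MulAction
open scoped ENNReal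

namespace Fermat.Agent.LT

/-- `G` with the twisted conjugation action `g • δ = g δ σ(g)⁻¹`. -/
def Tw {G : Type*} [Group G] (_σ : G ≃* G) : Type _ := G

namespace Tw

variable {G : Type*} [Group G] (σ : G ≃* G)

/-- the identity map -/
def of : G ≃ Tw σ := Equiv.refl _

instance [Countable G] : Countable (Tw σ) := inferInstanceAs (Countable G)

instance : MulAction G (Tw σ) where
  smul g d := of σ (g * (of σ).symm d * (σ g)⁻¹)
  one_smul d := by
    show (1 * (of σ).symm d * (σ 1)⁻¹ : G) = (of σ).symm d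
    simp
  mul_smul g h d := by
    show ((g * h) * (of σ).symm d * (σ (g * h))⁻¹ : G) =
      g * (h * (of σ).symm d * (σ h)⁻¹) * (σ g)⁻¹
    rw [map_mul, mul_inv_rev]
    simp only [mul_assoc]

theorem smul_of (g d : G) : g • of σ d = of σ (g * d * (σ g)⁻¹) := rfl

theorem symm_smul (g : G) (d : Tw σ) :
    (of σ).symm (g • d) = g * (of σ).symm d * (σ g)⁻¹ := rfl

variable {σ}

theorem of_mem_orbit_iff {d e : G} : of σ e ∈ orbit G (of σ d) ↔ ∃ g, g * d * (σ g)⁻¹ = e := by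
  rw [mem_orbit_iff]
  exact exists_congr fun g => ⟨fun h => (of σ).injective h, fun h => congrArg (of σ) h⟩

theorem mem_stabilizer {d g : G} : g ∈ stabilizer G (of σ d) ↔ g * d = d * σ g := by
  rw [mem_stabilizer_iff, smul_of, (of σ).apply_eq_iff_eq, mul_inv_eq_iff_eq_mul]

end Tw

section term

variable {G Z : Type*} [Group G] [MulAction G Z] {σ : G ≃* G}

/-- a term of the twisted diagonal of an automorphic kernel -/
def twTerm (φ : Z → Z → ℂ) (τ : Z → Z) (δ : Tw σ) (z : Z) : ℂ := φ z ((Tw.of σ).symm δ • τ z)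

theorem twTerm_of (φ : Z → Z → ℂ) (τ : Z → Z) (δ : G) (z : Z) :
    twTerm φ τ (Tw.of σ δ) z = φ z (δ • τ z) := rfl

theorem twTerm_smul {φ : Z → Z → ℂ} (hφ : ∀ (g : G) x y, φ (g • x) (g • y) = φ x y) {τ : Z → Z}
    (hτ : ∀ (g : G) z, τ (g • z) = σ g • τ z) (g : G) (δ : Tw σ) (z : Z) :
    twTerm φ τ (g • δ) (g • z) = twTerm φ τ δ z := by
  unfold twTerm
  rw [Tw.symm_smul, hτ, mul_smul, inv_smul_smul, mul_smul, hφ]

theorem aut_eq_tsum_twTerm (φ : Z → Z → ℂ) (τ : Z → Z) (z : Z) :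
    aut G φ z (τ z) = ∑' δ : Tw σ, twTerm φ τ δ z := by
  unfold aut
  rw [← (Tw.of σ).tsum_eq]
  rfl

variable [MeasurableSpace Z] [MeasurableConstSMul G Z]

theorem measurable_twTerm {φ : Z → Z → ℂ} (hm : Measurable (Function.uncurry φ)) {τ : Z → Z}
    (hτ : Measurable τ) (δ : Tw σ) : Measurable (twTerm φ τ δ) :=
  hm.comp (measurable_id.prodMk ((measurable_const_smul _).comp hτ))

end term

section classes

variable {G Z : Type*} [Group G] [Countable G] [MeasurableSpace Z] [MulAction G Z]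
  [MeasurableConstSMul G Z] {μ : Measure Z} [SMulInvariantMeasure G Z μ] {w : Z → ℝ≥0∞}
  {σ : G ≃* G} {φ : Z → Z → ℂ} {τ : Z → Z}

/-- **Decomposition of the twisted diagonal into twisted classes.** -/
theorem IsWeight.integral_aut_twist (h : IsWeight G w) (hm : Measurable (Function.uncurry φ))
    (hφ : ∀ (g : G) x y, φ (g • x) (g • y) = φ x y) (hτm : Measurable τ)
    (hτ : ∀ (g : G) z, τ (g • z) = σ g • τ z)
    {wo : Quotient (orbitRel G (Tw σ)) → Z → ℝ≥0∞}
    (hwo : ∀ o, IsWeight (stabilizer G o.out) (wo o))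
    (hfin : ∫⁻ z, ∑' δ : G, ‖φ z (δ • τ z)‖ₑ ∂μ.withDensity w ≠ ∞) :
    ∫ z, aut G φ z (τ z) ∂μ.withDensity w =
      ∑' o : Quotient (orbitRel G (Tw σ)), ∫ z, twTerm φ τ o.out z ∂μ.withDensity (wo o) := by
  simp only [aut_eq_tsum_twTerm (σ := σ) φ τ]
  refine unfold h hwo (fun δ => measurable_twTerm hm hτm δ) (twTerm_smul hφ hτ) ?_
  convert hfin using 3 with z
  rw [← (Tw.of σ).tsum_eq]
  rfl

/-- the same with explicit representatives of the classes -/
theorem IsWeight.integral_aut_twist_reps (h : IsWeight G w)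
    (hm : Measurable (Function.uncurry φ))
    (hφ : ∀ (g : G) x y, φ (g • x) (g • y) = φ x y) (hτm : Measurable τ)
    (hτ : ∀ (g : G) z, τ (g • z) = σ g • τ z) {I : Type*} {r : I → G}
    (hr : ∀ d, ∃ i, ∃ g : G, g * d * (σ g)⁻¹ = r i)
    (hr' : ∀ i j, (∃ g : G, g * r i * (σ g)⁻¹ = r j) → i = j) {wo : I → Z → ℝ≥0∞}
    (hwo : ∀ i, IsWeight (stabilizer G (Tw.of σ (r i))) (wo i))
    (hfin : ∫⁻ z, ∑' δ : G, ‖φ z (δ • τ z)‖ₑ ∂μ.withDensity w ≠ ∞) :
    ∫ z, aut G φ z (τ z) ∂μ.withDensity w =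
      ∑' i, ∫ z, φ z (r i • τ z) ∂μ.withDensity (wo i) := by
  simp only [aut_eq_tsum_twTerm (σ := σ) φ τ]
  have h1 : ∀ d : Tw σ, ∃ i, ∃ g : G, g • d = Tw.of σ (r i) := fun d => by
    obtain ⟨i, g, hg⟩ := hr ((Tw.of σ).symm d)
    exact ⟨i, g, congrArg (Tw.of σ) hg⟩
  have h2 : ∀ i j, (∃ g : G, g • Tw.of σ (r i) = Tw.of σ (r j)) → i = j := fun i j => by
    rintro ⟨g, hg⟩
    exact hr' i j ⟨g, (Tw.of σ).injective hg⟩
  have h3 := unfold_reps (μ := μ) h (r := fun i => Tw.of σ (r i)) h1 h2 hwo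
    (fun δ => measurable_twTerm hm hτm δ) (twTerm_smul hφ hτ) (by
      convert hfin using 3 with z
      rw [← (Tw.of σ).tsum_eq]
      rfl)
  exact h3

omit [Countable G] [MulAction G Z] [Group G] [MeasurableConstSMul G Z]
  [SMulInvariantMeasure G Z μ] in
/-- Integrability from a uniform bound on the support of the weight. -/
theorem lintegral_ne_top_of_bound {ν : Measure Z} [IsFiniteMeasure ν] {F : Z → ℝ≥0∞} {M : ℝ≥0∞}
    (hM : M ≠ ∞) (hF : ∀ᵐ z ∂ν, F z ≤ M) : ∫⁻ z, F z ∂ν ≠ ∞ := by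
  refine ne_top_of_le_ne_top ?_ (lintegral_mono_ae hF)
  rw [lintegral_const]
  exact ENNReal.mul_ne_top hM (measure_ne_top _ _)

end classes

end Fermat.Agent.LT

end
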