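import Fermat.Agent.LT.Sttf.Lin
import Fermat.Agent.LT.Auto.Diag
import Fermat.Agent.LT.Desc.TauRep

/-!
# The trace formula for symbols

`𝒱 ≤ L²(G \ (X × D))` a closed subspace, stable under all the symbols and under `τ`; two finite
linear combinations of full symbols which vanish on the orthogonal complement of `𝒱` and are
Hilbert–Schmidt operators on `𝒱`.
-/

set_option autoImplicit false
set_option linter.unusedSectionVars false

noncomputable section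

open MeasureTheory ENNReal MulAction ProbabilityTheory
open scoped InnerProductSpace ComplexConjugate

namespace Fermat.Agent.LT

open Fermat.Agent.LT.Desc

/-- Compatibility of the two forms of the hypotheses on `τ`. -/
theorem Desc.TauHyp.twAut {G Z : Type*} [Group G] [MeasurableSpace Z] [MulAction G Z]
    {μ : Measure Z} {t : Z ≃ᵐ Z} {σ : G ≃* G} (h : TauHyp G μ t σ) :
    TwAut G μ σ t t.symm where
  mp := h.mp
  mp' := h.mp.symm t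
  left z := t.symm_apply_apply z
  right z := t.apply_symm_apply z
  smul := h.smul

section Main

variable {G X D : Type*} [Group G] [MulAction G X] [MulAction G D] [MeasurableSpace X]
  [MeasurableSpace D] [MeasurableSingletonClass D] [Countable D] {mX : Measure X} [SFinite mX]
  {𝒦 : Type*} [Semigroup 𝒦] {κ : KerSg G mX 𝒦} {w : X × D → ℝ≥0∞}

/-- The kernel of a full symbol (zero for the symbols which are not full). -/
def skerS (κ : KerSg G mX 𝒦) (s : Symb G D 𝒦) (z z' : X × D) : ℂ :=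
  Option.elim s.1 0 fun k => sker κ k s.2 z z'

theorem skerS_coe (k : 𝒦) (a : HK G D) :
    skerS κ (((k : WithOne 𝒦), a) : Symb G D 𝒦) = sker κ k a := rfl

/-- The kernel of a product of two linear combinations. -/
def kerS (κ : KerSg G mX 𝒦) {ι₁ ι₂ : Type*} (t₁ : Finset ι₁) (c₁ : ι₁ → ℂ)
    (s₁ : ι₁ → Symb G D 𝒦) (t₂ : Finset ι₂) (c₂ : ι₂ → ℂ) (s₂ : ι₂ → Symb G D 𝒦)
    (z z' : X × D) : ℂ :=
  ∑ i ∈ t₁, ∑ j ∈ t₂, c₁ i * c₂ j * skerS κ (s₁ i * s₂ j) z z'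

variable [MeasurableConstSMul G (X × D)] [SMulInvariantMeasure G (X × D) (muXD mX D)] [Countable G]
  {hT : ∃ T : Finset D, ∀ d, ∃ g : G, g • d ∈ T} {hw : IsWeight G w}

/-- Full symbols as a semigroup. -/
theorem exists_full {ι : Type*} {t : Finset ι} {s : ι → Symb G D 𝒦}
    (hs : ∀ i ∈ t, s i ∈ fullS G D 𝒦) :
    ∃ p : t → 𝒦 × HK G D, ∀ i : t, s i = (((p i).1 : WithOne 𝒦), (p i).2) := by
  have h : ∀ i : t, ∃ p : 𝒦 × HK G D, s i = ((p.1 : WithOne 𝒦), p.2) := by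
    intro i
    obtain ⟨k, a, h⟩ := exists_of_mem_fullS (hs i i.2)
    exact ⟨(k, a), h⟩
  choose p hp using h
  exact ⟨p, hp⟩

theorem sum_sum_single {ι 𝒮 M : Type*} [AddCommMonoid M] [Module ℂ M] (t : Finset ι)
    (p : t → 𝒮) (c : ι → ℂ) (f : 𝒮 → M) :
    ((∑ i : t, Finsupp.single (p i) (c i)).sum fun s a => a • f s) =
      ∑ i : t, c i • f (p i) := by
  classical
  rw [← Finsupp.sum_finsetSum_index (h := fun s a => a • f s) (fun s => zero_smul _ _)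
    (fun s a b => add_smul _ _ _)]
  exact Finset.sum_congr rfl fun i _ => sum_smul_single f (p i) (c i)

/-- The kernel of a sum. -/
theorem linK_sum_single {ι 𝒮 Z : Type*} (K : 𝒮 → Z → Z → ℂ) (t : Finset ι) (p : t → 𝒮)
    (c : ι → ℂ) (z z' : Z) :
    linK K (∑ i : t, Finsupp.single (p i) (c i)) z z' = ∑ i : t, c i * K (p i) z z' :=
  sum_sum_single t p c fun s => K s z z'

/-- The convolution of two sums. -/
theorem linK_conv_sum_single {ι₁ ι₂ 𝒮 Z : Type*} [Mul 𝒮] (K : 𝒮 → Z → Z → ℂ) (t₁ : Finset ι₁)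
    (t₂ : Finset ι₂) (p₁ : t₁ → 𝒮) (p₂ : t₂ → 𝒮) (c₁ : ι₁ → ℂ) (c₂ : ι₂ → ℂ) (z z' : Z) :
    linK K (conv (∑ i : t₁, Finsupp.single (p₁ i) (c₁ i))
      (∑ j : t₂, Finsupp.single (p₂ j) (c₂ j))) z z' =
      ∑ i : t₁, ∑ j : t₂, c₁ i * c₂ j * K (p₁ i * p₂ j) z z' := by
  classical
  have h1 := sum_conv (fun s => K s z z') (∑ i : t₁, Finsupp.single (p₁ i) (c₁ i))
    (∑ j : t₂, Finsupp.single (p₂ j) (c₂ j))
  refine h1.trans ?_
  have h2 : ∀ (s : 𝒮) (a : ℂ), ((∑ j : t₂, Finsupp.single (p₂ j) (c₂ j)).sum fun t b =>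
      (a * b) • K (s * t) z z') = a • ∑ j : t₂, c₂ j * K (s * p₂ j) z z' := by
    intro s a
    have h3 := sum_sum_single t₂ p₂ c₂ fun t => K (s * t) z z'
    simp only [smul_eq_mul] at h3 ⊢
    rw [← h3, Finsupp.mul_sum]
    exact Finsupp.sum_congr fun t _ => mul_assoc _ _ _
  simp only [h2]
  have h4 := sum_sum_single t₁ p₁ c₁ fun s => ∑ j : t₂, c₂ j * K (s * p₂ j) z z'
  rw [h4]
  refine Finset.sum_congr rfl fun i _ => ?_
  rw [smul_eq_mul, Finset.mul_sum]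
  exact Finset.sum_congr rfl fun j _ => (mul_assoc _ _ _).symm

/-- The kernel of the product, in terms of full symbols. -/
theorem linK_eq_kerS {ι₁ ι₂ : Type*} {t₁ : Finset ι₁} {c₁ : ι₁ → ℂ}
    {s₁ : ι₁ → Symb G D 𝒦} {t₂ : Finset ι₂} {c₂ : ι₂ → ℂ} {s₂ : ι₂ → Symb G D 𝒦}
    {p₁ : t₁ → 𝒦 × HK G D} (hp₁ : ∀ i : t₁, s₁ i = (((p₁ i).1 : WithOne 𝒦), (p₁ i).2))
    {p₂ : t₂ → 𝒦 × HK G D} (hp₂ : ∀ i : t₂, s₂ i = (((p₂ i).1 : WithOne 𝒦), (p₂ i).2)) :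
    linK (fun s : 𝒦 × HK G D => sker κ s.1 s.2)
      (conv (∑ i : t₁, Finsupp.single (p₁ i) (c₁ i))
        (∑ j : t₂, Finsupp.single (p₂ j) (c₂ j))) = kerS κ t₁ c₁ s₁ t₂ c₂ s₂ := by
  funext z z'
  rw [linK_conv_sum_single]
  unfold kerS
  rw [← Finset.sum_coe_sort t₁]
  refine Finset.sum_congr rfl fun i _ => ?_
  rw [← Finset.sum_coe_sort t₂]
  refine Finset.sum_congr rfl fun j _ => ?_
  have e : ((((p₁ i).1 : WithOne 𝒦), (p₁ i).2) * (((p₂ j).1 : WithOne 𝒦), (p₂ j).2) :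
      Symb G D 𝒦) = ((((p₁ i).1 * (p₂ j).1 : 𝒦) : WithOne 𝒦), (p₁ i).2 * (p₂ j).2) := rfl
  rw [hp₁, hp₂, e, skerS_coe]
  rfl

/-- The operator of a sum. -/
theorem sum_eq_linS {ι : Type*} {t : Finset ι} {c : ι → ℂ} {s : ι → Symb G D 𝒦}
    {p : t → 𝒦 × HK G D} (hp : ∀ i : t, s i = (((p i).1 : WithOne 𝒦), (p i).2)) :
    ((∑ i : t, Finsupp.single (p i) (c i)).sum fun s a => a • opF κ hT hw s.1 s.2) =
      linS κ hT hw t c s := by
  refine (sum_sum_single t p c fun s => opF κ hT hw s.1 s.2).trans ?_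
  unfold linS
  rw [← Finset.sum_coe_sort t]
  refine Finset.sum_congr rfl fun i _ => ?_
  rw [hp, symOp_coe]

variable {σ : G ≃* G} {t : X × D ≃ᵐ X × D}
  {𝒱 : Submodule ℂ (Lp ℂ 2 ((muXD mX D).withDensity w))}

/-- The linear combination on the subspace. -/
def homS {ι : Type*} (h : StabRep (symOp κ hT hw) 𝒱) (t : Finset ι) (c : ι → ℂ)
    (s : ι → Symb G D 𝒦) : 𝒱 →L[ℂ] 𝒱 := ∑ i ∈ t, c i • h.hom (s i)

theorem coe_homS {ι : Type*} (h : StabRep (symOp κ hT hw) 𝒱) (t : Finset ι) (c : ι → ℂ)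
    (s : ι → Symb G D 𝒦) (v : 𝒱) :
    ((homS h t c s v : 𝒱) : Lp ℂ 2 ((muXD mX D).withDensity w)) =
      linS κ hT hw t c s ⟨v, h.le v.2⟩ := by
  unfold homS linS
  rw [sum_smul_apply' t c (fun i => h.hom (s i)) v,
    sum_smul_apply' t c (fun i => symOp κ hT hw (s i)) ⟨v, h.le v.2⟩]
  rw [Submodule.coe_sum, Submodule.coe_sum]
  rfl

/-- **The trace formula for symbols.** -/
theorem StabRep.hasSum_tr [StarMul 𝒦] [CompleteSpace 𝒱]
    [SecondCountableTopology (Lp ℂ 2 ((muXD mX D).withDensity w))]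
    [IsFiniteMeasure ((muXD mX D).withDensity w)]
    (hstar : ∀ (k : 𝒦) x x', κ.kap (star k) x x' = conj (κ.kap k x' x))
    (hN : ∀ (k : 𝒦) (a : HK G D), NKer G (muXD mX D) (sker κ k a))
    (h : StabRep (symOp κ hT hw) 𝒱) (hτ : TauHyp G (muXD mX D) t σ)
    (hst : StabOp h.le (hτ.tauL hw)) {τV : 𝒱 →L[ℂ] 𝒱}
    (hτV : ∀ v : 𝒱, ((τV v : 𝒱) : Lp ℂ 2 ((muXD mX D).withDensity w)) =
      hτ.symm.tauL hw ⟨v, h.le v.2⟩)
    {ι₁ ι₂ : Type*} {t₁ : Finset ι₁} {c₁ : ι₁ → ℂ}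
    {s₁ : ι₁ → Symb G D 𝒦} {t₂ : Finset ι₂} {c₂ : ι₂ → ℂ} {s₂ : ι₂ → Symb G D 𝒦}
    (hf₁ : ∀ i ∈ t₁, s₁ i ∈ fullS G D 𝒦) (hf₂ : ∀ i ∈ t₂, s₂ i ∈ fullS G D 𝒦)
    (hk₁ : ∀ f : autL2 G ((muXD mX D).withDensity w),
      (f : Lp ℂ 2 ((muXD mX D).withDensity w)) ∈ 𝒱ᗮ →
        ContinuousLinearMap.adjoint (linS κ hT hw t₁ c₁ s₁) f = 0)
    (hk₂ : ∀ f : autL2 G ((muXD mX D).withDensity w),
      (f : Lp ℂ 2 ((muXD mX D).withDensity w)) ∈ 𝒱ᗮ → linS κ hT hw t₂ c₂ s₂ f = 0)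
    (hs₁ : IsHS (homS h t₁ c₁ s₁)) (hs₂ : IsHS (homS h t₂ c₂ s₂))
    {ι : Type*} (b : HilbertBasis ι ℂ 𝒱) :
    HasSum (fun i => ⟪b i, (homS h t₁ c₁ s₁ * (homS h t₂ c₂ s₂ * τV)) (b i)⟫_ℂ)
      (∫ z, aut G (kerS κ t₁ c₁ s₁ t₂ c₂ s₂) z (t z) ∂(muXD mX D).withDensity w) := by
  obtain ⟨p₁, hp₁⟩ := exists_full hf₁
  obtain ⟨p₂, hp₂⟩ := exists_full hf₂
  let j : 𝒱 →ₗᵢ[ℂ] autL2 G ((muXD mX D).withDensity w) :=
    ⟨Submodule.inclusion h.le, fun v => rfl⟩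
  have hperp : ∀ f : autL2 G ((muXD mX D).withDensity w), (∀ v, ⟪j v, f⟫_ℂ = 0) →
      (f : Lp ℂ 2 ((muXD mX D).withDensity w)) ∈ 𝒱ᗮ := by
    intro f hf
    rw [Submodule.mem_orthogonal]
    intro u hu
    exact hf ⟨u, hu⟩
  have hadj1 : ∀ v : 𝒱, ContinuousLinearMap.adjoint (linS κ hT hw t₁ c₁ s₁) (j v) =
      j (ContinuousLinearMap.adjoint (homS h t₁ c₁ s₁) v) := by
    intro v
    have e1 : ContinuousLinearMap.adjoint (homS h t₁ c₁ s₁) =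
        homS h t₁ (fun i => conj (c₁ i)) fun i => sstar (s₁ i) := by
      refine (adjoint_sum_smul t₁ c₁ (fun i => h.hom (s₁ i))).trans ?_
      exact Finset.sum_congr rfl fun i _ => congrArg _
        (h.adjoint_hom (adjoint_symOp κ hT hw hstar (D := D)) (s₁ i))
    rw [e1, adjoint_linS hstar]
    apply Subtype.ext
    exact (coe_homS h t₁ (fun i => conj (c₁ i)) (fun i => sstar (s₁ i)) v).symm
  have hj2 : ∀ v : 𝒱, linS κ hT hw t₂ c₂ s₂ (hτ.symm.tauL hw (j v)) =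
      j ((homS h t₂ c₂ s₂ * τV) v) := by
    intro v
    apply Subtype.ext
    have e1 := coe_homS h t₂ c₂ s₂ (τV v)
    have e2 : (⟨(τV v : 𝒱), h.le (τV v).2⟩ : autL2 G ((muXD mX D).withDensity w)) =
        hτ.symm.tauL hw (j v) := Subtype.ext (hτV v)
    rw [e2] at e1
    exact e1.symm
  have hτperp : ∀ f : autL2 G ((muXD mX D).withDensity w), (∀ v, ⟪j v, f⟫_ℂ = 0) →
      ∀ v, ⟪j v, hτ.symm.tauL hw f⟫_ℂ = 0 := by
    intro f hf v
    rw [← hτ.adjoint_tauL hw, ContinuousLinearMap.adjoint_inner_right]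
    exact hf ⟨_, hst v v.2⟩
  have key := sttf_lin (μ := muXD mX D) hw (K := fun s : 𝒦 × HK G D => sker κ s.1 s.2)
    (fun s => hN s.1 s.2) (fun s u x z => sker_mul κ s.1 u.1 s.2 u.2 x z)
    (f := fun s => opF κ hT hw s.1 s.2)
    (fun s => (opF_eq_opL κ hT hw (hN s.1 s.2).hyp.choose_spec).symm) hτ.twAut
    (S := hτ.symm.tauL hw)
    (fun f => (withDensity_ac (muXD mX D) w).ae_eq (hτ.symm.tauL_ae hw f)) j
    (∑ i : t₁, Finsupp.single (p₁ i) (c₁ i)) (∑ j : t₂, Finsupp.single (p₂ j) (c₂ j))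
  rw [sum_eq_linS hp₁, sum_eq_linS hp₂, linK_eq_kerS hp₁ hp₂] at key
  have key2 := key (fun g hg => hk₁ g (hperp g hg))
    (fun g hg => hk₂ _ (hperp _ (hτperp g hg)))
    (T₁ := j.toContinuousLinearMap ∘L ContinuousLinearMap.adjoint (homS h t₁ c₁ s₁))
    (T₂ := j.toContinuousLinearMap ∘L (homS h t₂ c₂ s₂ * τV))
    (fun v => (hadj1 v).symm) (fun v => (hj2 v).symm) (hs₁.adjoint.comp_left _)
    ((hs₂.comp_right τV).comp_left _) b
  have e3 : ∀ v : 𝒱, linS κ hT hw t₁ c₁ s₁ (j v) = j (homS h t₁ c₁ s₁ v) := by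
    intro v
    apply Subtype.ext
    exact (coe_homS h t₁ c₁ s₁ v).symm
  have e4 : (fun i => ⟪b i, (homS h t₁ c₁ s₁ * (homS h t₂ c₂ s₂ * τV)) (b i)⟫_ℂ) =
      fun i => ⟪j (b i), linS κ hT hw t₁ c₁ s₁ (linS κ hT hw t₂ c₂ s₂
        (hτ.symm.tauL hw (j (b i))))⟫_ℂ := by
    funext i
    rw [hj2, e3]
    rfl
  rw [e4]
  exact key2

/-! ### The geometric side is linear -/

theorem nker_skerS (hN : ∀ (k : 𝒦) (a : HK G D), NKer G (muXD mX D) (sker κ k a))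
    (s : Symb G D 𝒦) : NKer G (muXD mX D) (skerS κ s) := by
  obtain ⟨x, a⟩ := s
  induction x using WithOne.recOneCoe with
  | one => exact NKer.zero
  | coe k => exact hN k a

/-- The automorphic kernel of the product. -/
theorem aut_kerS (hN : ∀ (k : 𝒦) (a : HK G D), NKer G (muXD mX D) (sker κ k a))
    {ι₁ ι₂ : Type*} (t₁ : Finset ι₁) (c₁ : ι₁ → ℂ)
    (s₁ : ι₁ → Symb G D 𝒦) (t₂ : Finset ι₂) (c₂ : ι₂ → ℂ) (s₂ : ι₂ → Symb G D 𝒦)
    (x z : X × D) : aut G (kerS κ t₁ c₁ s₁ t₂ c₂ s₂) x z =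
      ∑ i ∈ t₁, ∑ j ∈ t₂, c₁ i * c₂ j * aut G (skerS κ (s₁ i * s₂ j)) x z := by
  unfold aut kerS
  have hs : ∀ i j, Summable fun g : G =>
      c₁ i * c₂ j * skerS κ (s₁ i * s₂ j) x (g • z) := fun i j =>
    ((nker_skerS hN (s₁ i * s₂ j)).summable_row x z).mul_left _
  rw [Summable.tsum_finsetSum fun i _ => summable_sum fun j _ => hs i j]
  refine Finset.sum_congr rfl fun i _ => ?_
  rw [Summable.tsum_finsetSum fun j _ => hs i j]
  exact Finset.sum_congr rfl fun j _ => tsum_mul_left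

/-- **Linearity of the geometric side.** -/
theorem integral_kerS (hN : ∀ (k : 𝒦) (a : HK G D), NKer G (muXD mX D) (sker κ k a))
    {ν : Measure (X × D)} {T : X × D → X × D} (hTm : Measurable T)
    {ι₁ ι₂ : Type*} (t₁ : Finset ι₁) (c₁ : ι₁ → ℂ)
    (s₁ : ι₁ → Symb G D 𝒦) (t₂ : Finset ι₂) (c₂ : ι₂ → ℂ) (s₂ : ι₂ → Symb G D 𝒦)
    (hfin : ∀ i ∈ t₁, ∀ j ∈ t₂,
      ∫⁻ z, ∑' g : G, ‖skerS κ (s₁ i * s₂ j) z (g • T z)‖ₑ ∂ν ≠ ∞) :
    ∫ z, aut G (kerS κ t₁ c₁ s₁ t₂ c₂ s₂) z (T z) ∂ν =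
      ∑ i ∈ t₁, ∑ j ∈ t₂, c₁ i * c₂ j * ∫ z, aut G (skerS κ (s₁ i * s₂ j)) z (T z) ∂ν := by
  simp_rw [aut_kerS hN]
  have hi : ∀ i ∈ t₁, ∀ j ∈ t₂,
      Integrable (fun z => c₁ i * c₂ j * aut G (skerS κ (s₁ i * s₂ j)) z (T z)) ν :=
    fun i hi j hj => (integrable_aut_twist (nker_skerS hN _).meas hTm (hfin i hi j hj)).const_mul _
  rw [integral_finsetSum _ fun i h1 => integrable_finsetSum _ fun j h2 => hi i h1 j h2]
  refine Finset.sum_congr rfl fun i h1 => ?_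
  rw [integral_finsetSum _ fun j h2 => hi i h1 j h2]
  exact Finset.sum_congr rfl fun j _ => integral_const_mul _ _

end Main

end Fermat.Agent.LT

end
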