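import Fermat.Agent.LT.TraceKer
import Fermat.Agent.LT.Sttf.Classes

/-!
# The simple twisted trace formula, abstract form

`k₁`, `k₂` invariant kernels on `Z`, whose automorphic kernels have uniformly bounded rows resp.
columns in `L²(G \ Z)`; `V` a closed subspace of `L²` containing the rows of the first one; `b` a
Hilbert basis of `V`. Then

  `∑_j ∫ (R(k₁) b_j) (z) conj ((R(k₂)* b_j) (τ z)) = ∑_[δ] ∫_{G_δ \ Z} (k₁ * k₂) (z, δ τ z)`

as soon as the twisted diagonal converges absolutely.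
-/

set_option autoImplicit false

noncomputable section

open MeasureTheory MulAction
open scoped ENNReal ComplexConjugate

namespace Fermat.Agent.LT

section meas

variable {G Z : Type*} [Group G] [Countable G] [MeasurableSpace Z] [MulAction G Z]
  [MeasurableConstSMul G Z] {k k₁ k₂ : Z → Z → ℂ}

theorem measurable_aut (hk : Measurable (Function.uncurry k)) :
    Measurable (Function.uncurry (aut G k)) := by
  have h1 : Function.uncurry (aut G k) = fun p : Z × Z => ∑' g : G, k p.1 (g • p.2) := rfl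
  rw [h1]
  exact Measurable.tsum fun g =>
    hk.comp (measurable_fst.prodMk ((measurable_const_smul g).comp measurable_snd))

theorem measurable_kcomp {μ : Measure Z} [SFinite μ] (hk₁ : Measurable (Function.uncurry k₁))
    (hk₂ : Measurable (Function.uncurry k₂)) : Measurable (Function.uncurry (kcomp μ k₁ k₂)) := by
  have h1 : StronglyMeasurable (Function.uncurry fun (p : Z × Z) (y : Z) =>
      k₁ p.1 y * k₂ y p.2) := by
    refine Measurable.stronglyMeasurable ?_
    exact (hk₁.comp ((measurable_fst.comp measurable_fst).prodMk measurable_snd)).mul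
      (hk₂.comp (measurable_snd.prodMk (measurable_snd.comp measurable_fst)))
  exact (h1.integral_prod_right).measurable

/-- If only the members of a finite set contribute, the sum is bounded. -/
theorem tsum_enorm_le_of_finset {ι : Type*} {f : ι → ℂ} (T : Finset ι) {B : ℝ≥0∞}
    (hB : ∀ i, ‖f i‖ₑ ≤ B) (hT : ∀ i, f i ≠ 0 → i ∈ T) : ∑' i, ‖f i‖ₑ ≤ T.card * B := by
  rw [tsum_eq_sum (s := T) fun i hi => by
    rw [not_imp_comm.mp (hT i) hi, enorm_zero]]
  calc ∑ i ∈ T, ‖f i‖ₑ ≤ ∑ _i ∈ T, B := Finset.sum_le_sum fun i _ => hB i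
    _ = T.card * B := by rw [Finset.sum_const, nsmul_eq_mul]

end meas

section main

variable {G Z ι : Type*} [Group G] [Countable G] [MeasurableSpace Z] [MulAction G Z]
  [MeasurableConstSMul G Z] {μ : Measure Z} [SMulInvariantMeasure G Z μ] {w : Z → ℝ≥0∞}
  {σ : G ≃* G} {τ : Z → Z} {k₁ k₂ : Z → Z → ℂ}

/-- **The simple twisted trace formula**, abstract form. -/
theorem IsWeight.hasSum_twisted_trace [SFinite μ] (h : IsWeight G w)
    [IsFiniteMeasure (μ.withDensity w)]
    (hm₁ : Measurable (Function.uncurry k₁)) (hm₂ : Measurable (Function.uncurry k₂))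
    (hk₁ : ∀ (g : G) x y, k₁ (g • x) (g • y) = k₁ x y)
    (hk₂ : ∀ (g : G) x y, k₂ (g • x) (g • y) = k₂ x y)
    {C : ℝ≥0∞} (hC : C ≠ ∞)
    (h₁ : ∀ x, ∫⁻ y, ‖aut G k₁ x y‖ₑ ^ 2 ∂μ.withDensity w ≤ C)
    (h₂ : ∀ z, ∫⁻ y, ‖aut G k₂ y z‖ₑ ^ 2 ∂μ.withDensity w ≤ C)
    {V : Submodule ℂ (Lp ℂ 2 (μ.withDensity w))} [CompleteSpace V] [Countable ι]
    (b : HilbertBasis ι ℂ V)
    (hV : ∀ x, (memLp_row (measurable_aut hm₁) hC h₁ x).toLp _ ∈ V)
    (hτm : Measurable τ) (hτ : ∀ (g : G) z, τ (g • z) = σ g • τ z)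
    (hcomp : ∀ x z, ∑' g : G, ∫⁻ y, ‖k₁ x y * k₂ y (g • z)‖ₑ ∂μ ≠ ∞)
    {wo : Quotient (orbitRel G (Tw σ)) → Z → ℝ≥0∞}
    (hwo : ∀ o, IsWeight (stabilizer G o.out) (wo o))
    (hfin : ∫⁻ z, ∑' δ : G, ‖kcomp μ k₁ k₂ z (δ • τ z)‖ₑ ∂μ.withDensity w ≠ ∞) :
    HasSum (fun j => ∫ x, opR (μ.withDensity w) (aut G k₁) (b j : Lp ℂ 2 (μ.withDensity w)) x *
      conj (opS (μ.withDensity w) (aut G k₂) (b j : Lp ℂ 2 (μ.withDensity w)) (τ x))
        ∂μ.withDensity w)
      (∑' o : Quotient (orbitRel G (Tw σ)),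
        ∫ z, twTerm (kcomp μ k₁ k₂) τ o.out z ∂μ.withDensity (wo o)) := by
  have key := hasSum_integral_opR_mul_opS (measurable_aut (G := G) hm₁) (measurable_aut hm₂) hC
    h₁ h₂ b hV hτm
  rw [← h.integral_aut_twist (measurable_kcomp hm₁ hm₂) (kcomp_smul hk₁ hk₂) hτm hτ hwo hfin]
  convert key using 1
  refine integral_congr_ae (Filter.Eventually.of_forall fun x => ?_)
  exact h.aut_comp hk₂ (hm₁.comp measurable_prodMk_left).aestronglyMeasurable
    (fun z' => (hm₂.comp measurable_prodMk_right).aestronglyMeasurable) (hcomp x (τ x))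

end main

end Fermat.Agent.LT

end
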