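import Fermat.Agent.LT.TauXi
import Fermat.Agent.LT.Red.SepLevel
import Fermat.Agent.LT.Sttf.Main

/-!
# Absolute convergence of the twisted diagonal

`Z = X_∞ × D`. A kernel of bounded support which meets no upper triangular `δ` on the twisted
diagonal has only finitely many terms on a Siegel set.
-/

set_option autoImplicit false

noncomputable section

open MeasureTheory Matrix NumberField
open scoped ENNReal

namespace Fermat.Agent.LT.Sttf

open H3 Red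

/-! ### Boxes -/

section box

variable {F : Type*} [Field F] {D : Type*}

/-- The points close to a point of a box are in a box. -/
theorem mem_box_of_cu {c T U : ℝ} (hc : 0 < c) (hU : 0 < U) {D0 D1 : Finset D} {z z' : Xi F × D}
    (hz : z ∈ boxSet (F := F) c T D0) (hcu : ∀ w, cu (z.1 w) (z'.1 w) ≤ U) (hd : z'.2 ∈ D1) :
    z' ∈ boxSet (F := F) (max (c + 2 * U * T) (2 * U * c)) (2 * U * T) D1 := by
  refine ⟨fun w => ?_, hd⟩
  obtain ⟨h1, h2, h3⟩ := hz.1 w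
  have hy := (z.1 w).y_pos
  have hy' := (z'.1 w).y_pos
  have hT : 0 < T := hy.trans_le h3
  have h4 : (z'.1 w).y ≤ 2 * U * (z.1 w).y := y_le_of_cu_le (hcu w)
  have h5 : (z.1 w).y ≤ 2 * U * (z'.1 w).y := y_le_of_cu_le (by rw [cu_comm]; exact hcu w)
  have h6 : (z'.1 w).y ≤ 2 * U * T := h4.trans (by gcongr)
  have h7 := normSq_le_of_cu_le (hcu w)
  have h8 : ‖(z.1 w).z - (z'.1 w).z‖ ≤ 2 * U * T := by
    rw [Complex.normSq_eq_norm_sq] at h7
    have h9 : ‖(z.1 w).z - (z'.1 w).z‖ ^ 2 ≤ (2 * U * T) ^ 2 := by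
      calc ‖(z.1 w).z - (z'.1 w).z‖ ^ 2 ≤ 2 * U * (z.1 w).y * (z'.1 w).y := h7
        _ ≤ 2 * U * T * (2 * U * T) := by gcongr
        _ = (2 * U * T) ^ 2 := (sq _).symm
    exact le_of_sq_le_sq h9 (by positivity)
  refine ⟨?_, ?_, h6⟩
  · refine le_trans ?_ (le_max_left _ _)
    calc ‖(z'.1 w).z‖ = ‖(z.1 w).z - ((z.1 w).z - (z'.1 w).z)‖ := by rw [sub_sub_cancel]
      _ ≤ ‖(z.1 w).z‖ + ‖(z.1 w).z - (z'.1 w).z‖ := norm_sub_le _ _
      _ ≤ c + 2 * U * T := add_le_add h1 h8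
  · refine (inv_anti₀ (by positivity) (le_max_right (c + 2 * U * T) (2 * U * c))).trans ?_
    rw [mul_inv]
    calc (2 * U)⁻¹ * c⁻¹ ≤ (2 * U)⁻¹ * (z.1 w).y := by gcongr
      _ ≤ (2 * U)⁻¹ * (2 * U * (z'.1 w).y) := by gcongr
      _ = (z'.1 w).y := by rw [inv_mul_cancel_left₀ (by positivity)]

theorem box_mono {c c' T T' : ℝ} (hc : 0 < c) (hcc : c ≤ c') (hTT : T ≤ T') {D0 D1 : Finset D}
    (hD : D0 ⊆ D1) : boxSet (F := F) c T D0 ⊆ boxSet (F := F) c' T' D1 := by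
  rintro z ⟨h, hd⟩
  exact ⟨fun w => ⟨(h w).1.trans hcc, (inv_anti₀ hc hcc).trans (h w).2.1, (h w).2.2.trans hTT⟩,
    hD hd⟩

/-- Every point is in a box. -/
theorem exists_box [NumberField F] (z : Xi F × D) : ∃ c T : ℝ, 0 < c ∧ z ∈ boxSet (F := F) c T {z.2} := by
  classical
  refine ⟨1 + ∑ w, (‖(z.1 w).z‖ + (z.1 w).y⁻¹), ∑ w, (z.1 w).y, ?_, fun w => ⟨?_, ?_, ?_⟩,
    Finset.mem_singleton_self _⟩
  · have : 0 ≤ ∑ w, (‖(z.1 w).z‖ + (z.1 w).y⁻¹) := Finset.sum_nonneg fun w _ =>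
      add_nonneg (norm_nonneg _) (inv_nonneg.mpr (z.1 w).y_pos.le)
    linarith
  · have h1 := Finset.single_le_sum (f := fun w => ‖(z.1 w).z‖ + (z.1 w).y⁻¹) (fun w _ =>
      add_nonneg (norm_nonneg _) (inv_nonneg.mpr (z.1 w).y_pos.le)) (Finset.mem_univ w)
    have h2 := inv_nonneg.mpr (z.1 w).y_pos.le
    have h3 : ‖(z.1 w).z‖ + (z.1 w).y⁻¹ ≤ ∑ w, (‖(z.1 w).z‖ + (z.1 w).y⁻¹) := h1
    linarith
  · have h1 := Finset.single_le_sum (f := fun w => ‖(z.1 w).z‖ + (z.1 w).y⁻¹) (fun w _ =>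
      add_nonneg (norm_nonneg _) (inv_nonneg.mpr (z.1 w).y_pos.le)) (Finset.mem_univ w)
    have h2 := norm_nonneg (z.1 w).z
    have h3 : ‖(z.1 w).z‖ + (z.1 w).y⁻¹ ≤ ∑ w, (‖(z.1 w).z‖ + (z.1 w).y⁻¹) := h1
    refine inv_le_of_inv_le₀ (z.1 w).y_pos ?_
    linarith
  · exact Finset.single_le_sum (f := fun w => (z.1 w).y) (fun w _ => (z.1 w).y_pos.le)
      (Finset.mem_univ w)

/-- If all the factors are at least `c⁻¹` then a bound of the product bounds the factors. -/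
theorem le_of_prod_le {ι : Type*} [Fintype ι] {y y' : ι → ℝ} {c B : ℝ} (hc : 1 ≤ c)
    (hy : ∀ i, c⁻¹ ≤ y i) (hy' : ∀ i, c⁻¹ ≤ y' i) (hB : ∏ i, (y i * y' i) ≤ B) (i : ι) :
    y i ≤ B * (c ^ 2) ^ Fintype.card ι ∧ y' i ≤ B * (c ^ 2) ^ Fintype.card ι := by
  classical
  have hc0 : 0 < c := one_pos.trans_le hc
  have h1 : ∀ i, 1 ≤ c * y i := fun i => by
    calc 1 = c * c⁻¹ := (mul_inv_cancel₀ hc0.ne').symm
      _ ≤ c * y i := by gcongr; exact hy i
  have h1' : ∀ i, 1 ≤ c * y' i := fun i => by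
    calc 1 = c * c⁻¹ := (mul_inv_cancel₀ hc0.ne').symm
      _ ≤ c * y' i := by gcongr; exact hy' i
  have h0 : ∀ i, 0 < y i := fun i => (inv_pos.mpr hc0).trans_le (hy i)
  have h0' : ∀ i, 0 < y' i := fun i => (inv_pos.mpr hc0).trans_le (hy' i)
  have hP : ∏ i, ((c * y i) * (c * y' i)) ≤ B * (c ^ 2) ^ Fintype.card ι := by
    have : ∏ i, ((c * y i) * (c * y' i)) = (∏ i, (y i * y' i)) * (c ^ 2) ^ Fintype.card ι := by
      rw [← Finset.card_univ, ← Finset.prod_const, ← Finset.prod_mul_distrib]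
      exact Finset.prod_congr rfl fun i _ => by ring
    rw [this]
    gcongr
  have h2 : (c * y i) * (c * y' i) ≤ ∏ i, ((c * y i) * (c * y' i)) := by
    rw [← Finset.mul_prod_erase Finset.univ (fun i => (c * y i) * (c * y' i)) (Finset.mem_univ i)]
    have h3 : 1 ≤ ∏ j ∈ Finset.univ.erase i, ((c * y j) * (c * y' j)) :=
      Finset.prod_induction (p := fun a : ℝ => 1 ≤ a) _ (fun _ _ ha hb =>
        one_le_mul_of_one_le_of_one_le ha hb) le_rfl fun j _ =>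
          one_le_mul_of_one_le_of_one_le (h1 j) (h1' j)
    exact le_mul_of_one_le_right (by have := h1 i; have := h1' i; positivity) h3
  constructor
  · calc y i ≤ c * y i := le_mul_of_one_le_left (h0 i).le hc
      _ ≤ (c * y i) * (c * y' i) := le_mul_of_one_le_right (by have := h0 i; positivity) (h1' i)
      _ ≤ _ := h2.trans hP
  · calc y' i ≤ c * y' i := le_mul_of_one_le_left (h0' i).le hc
      _ ≤ (c * y i) * (c * y' i) := le_mul_of_one_le_left (by have := h0' i; positivity) (h1 i)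
      _ ≤ _ := h2.trans hP

end box

/-! ### Kernels of bounded support -/

section supp

variable {F : Type*} [Field F] {D : Type*}

/-- `φ` is supported in `{cu ≤ U} × {d' ∈ Nb d}`. -/
def SuppIn (U : ℝ) (Nb : D → Finset D) (φ : Xi F × D → Xi F × D → ℂ) : Prop :=
  ∀ z z', φ z z' ≠ 0 → (∀ w, cu (z.1 w) (z'.1 w) ≤ U) ∧ z'.2 ∈ Nb z.2

/-- The action of an automorphism on `Z`. -/
def tauZ (τ : F ≃+* F) (τD : D → D) (z : Xi F × D) : Xi F × D := (Xi.tau τ z.1, τD z.2)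

end supp

section conv

variable {F : Type*} [Field F] [NumberField F] [IsTotallyComplex F] {D : Type*}
  [MulAction (GL (Fin 2) F) D] [IsLevel F D]

/-- **Finiteness of the twisted diagonal on a Siegel set.** -/
theorem exists_finset_twist (c : ℝ) (D0 : Finset D) {U : ℝ} (hU : 0 < U) {Nb : D → Finset D}
    {φ : Xi F × D → Xi F × D → ℂ} (hφ : SuppIn U Nb φ) (τ : F ≃+* F) (τD : D → D)
    (hreg : ∀ (g : GL (Fin 2) F) (z : Xi F × D), φ z (g • tauZ τ τD z) ≠ 0 → g 1 0 ≠ 0) :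
    ∃ T : Finset (PG F), ∀ z ∈ siegelSet (F := F) c D0, ∀ δ : PG F,
      φ z (δ • tauZ τ τD z) ≠ 0 → δ ∈ T := by
  classical
  by_cases hc : 1 ≤ c
  swap
  · refine ⟨∅, fun z hz => (hc (one_le_of_isSiegel hz.1)).elim⟩
  have hc0 : 0 < c := one_pos.trans_le hc
  set D1 : Finset D := D0 ∪ D0.image τD ∪ D0.biUnion Nb with hD1
  obtain ⟨B, hB0, hB⟩ := exists_sep_cu (F := F) D1 U hU
  set T0 : ℝ := B * (c ^ 2) ^ Fintype.card (InfinitePlace F) with hT0
  set c1 : ℝ := max (c + 2 * U * T0) (2 * U * c) with hc1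
  set T1 : ℝ := 2 * U * T0 with hT1
  have hfin := boxSet_finite (F := F) (c := max c c1) (lt_max_of_lt_left hc0) (max T0 T1) D1
  refine ⟨hfin.toFinset, fun z hz δ hδ => ?_⟩
  obtain ⟨g, rfl⟩ := QuotientGroup.mk_surjective δ
  rw [Set.Finite.mem_toFinset]
  have hmk : ∀ z : Xi F × D, (QuotientGroup.mk g : PG F) • z = g • z := fun _ => rfl
  rw [hmk] at hδ
  obtain ⟨hcu, hd⟩ := hφ _ _ hδ
  have hd0 : z.2 ∈ D0 := hz.2
  have hd1 : (tauZ τ τD z).2 ∈ D1 := by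
    rw [hD1]
    exact Finset.mem_union_left _ (Finset.mem_union_right _ (Finset.mem_image_of_mem _ hd0))
  have hd2 : (g • tauZ τ τD z).2 ∈ D1 := by
    rw [hD1]
    exact Finset.mem_union_right _ (Finset.mem_biUnion.mpr ⟨z.2, hd0, hd⟩)
  -- the product of the heights is bounded
  have hprod : ∏ w : InfinitePlace F, ((z.1 w).y * ((tauZ τ τD z).1 w).y) ≤ B := by
    by_contra hcon
    push Not at hcon
    exact hreg g z hδ (hB z.1 (tauZ τ τD z).1 g (tauZ τ τD z).2 hd1 hd2 hcu hcon)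
  have hylow : ∀ w, c⁻¹ ≤ (z.1 w).y := fun w => (hz.1 w).2.1
  have hy'eq : ∀ w, ((tauZ τ τD z).1 w).y = (z.1 (w.comap (τ : F →+* F))).y := fun w =>
    Xi.y_tau τ z.1 w
  have hbd := le_of_prod_le hc hylow (fun w => by rw [hy'eq w]; exact hylow _) hprod
  have hz0 : z ∈ boxSet (F := F) c T0 D0 :=
    ⟨fun w => ⟨(hz.1 w).1, (hz.1 w).2.1, (hbd w).1⟩, hd0⟩
  have hτz : tauZ τ τD z ∈ boxSet (F := F) c T0 D1 := by
    refine ⟨fun w => ⟨?_, ?_, (hbd w).2⟩, hd1⟩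
    · have : ‖((tauZ τ τD z).1 w).z‖ = ‖(z.1 (w.comap (τ : F →+* F))).z‖ := Xi.norm_z_tau τ z.1 w
      rw [this]
      exact (hz.1 _).1
    · rw [hy'eq w]
      exact hylow _
  have hgz : g • tauZ τ τD z ∈ boxSet (F := F) c1 T1 D1 := mem_box_of_cu hc0 hU hz0 hcu hd2
  have hc1pos : 0 < c1 := by
    rw [hc1]
    exact lt_max_of_lt_right (by positivity)
  refine ⟨tauZ τ τD z, box_mono hc0 (le_max_left _ _) (le_max_left _ _) (Finset.Subset.refl _) hτz,
    ?_⟩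
  rw [hmk]
  exact box_mono hc1pos (le_max_right _ _) (le_max_right _ _) (Finset.Subset.refl _) hgz

/-- **Absolute convergence of the twisted diagonal**, uniform on a Siegel set. -/
theorem exists_bound_twist (c : ℝ) (D0 : Finset D) {U : ℝ} (hU : 0 < U) {Nb : D → Finset D}
    {φ : Xi F × D → Xi F × D → ℂ} (hφ : SuppIn U Nb φ) {B : ℝ≥0∞} (hB : B ≠ ∞)
    (hφB : ∀ z z', ‖φ z z'‖ₑ ≤ B) (τ : F ≃+* F) (τD : D → D)
    (hreg : ∀ (g : GL (Fin 2) F) (z : Xi F × D), φ z (g • tauZ τ τD z) ≠ 0 → g 1 0 ≠ 0) :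
    ∃ M : ℝ≥0∞, M ≠ ∞ ∧ ∀ z ∈ siegelSet (F := F) c D0,
      ∑' δ : PG F, ‖φ z (δ • tauZ τ τD z)‖ₑ ≤ M := by
  obtain ⟨T, hT⟩ := exists_finset_twist c D0 hU hφ τ τD hreg
  exact ⟨T.card * B, ENNReal.mul_ne_top (ENNReal.natCast_ne_top _) hB, fun z hz =>
    tsum_enorm_le_of_finset T (fun δ => hφB _ _) (hT z hz)⟩

/-- **Proper discontinuity** for kernels: only finitely many `g` with `φ x (g z) ≠ 0`. -/
theorem finite_kernel_support {U : ℝ} (hU : 0 < U) {Nb : D → Finset D}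
    {φ : Xi F × D → Xi F × D → ℂ} (hφ : SuppIn U Nb φ) (x z : Xi F × D) :
    {g : PG F | φ x (g • z) ≠ 0}.Finite := by
  classical
  obtain ⟨c, T, hc, hx⟩ := exists_box (F := F) x
  obtain ⟨c', T', hc', hz⟩ := exists_box (F := F) z
  set c1 : ℝ := max (c + 2 * U * T) (2 * U * c) with hc1
  have hc1pos : 0 < c1 := by
    rw [hc1]
    exact lt_max_of_lt_right (by positivity)
  set c2 := max c1 c' with hc2
  set T2 := max (2 * U * T) T' with hT2
  refine (boxSet_finite (F := F) (c := c2) (lt_max_of_lt_left hc1pos) T2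
    (Nb x.2 ∪ {z.2})).subset fun g hg => ?_
  obtain ⟨hcu, hd⟩ := hφ _ _ hg
  have h1 : g • z ∈ boxSet (F := F) c1 (2 * U * T) (Nb x.2) := mem_box_of_cu hc hU hx hcu hd
  exact ⟨z, box_mono hc' (le_max_right _ _) (le_max_right _ _) Finset.subset_union_right hz,
    box_mono hc1pos (le_max_left _ _) (le_max_left _ _) Finset.subset_union_left h1⟩

end conv

end Fermat.Agent.LT.Sttf

end
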