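import Fermat.Agent.LT.Sttf.Trace

/-!
# The trace formula for a Hilbert space embedded in `L²(G \ Z)`
-/

set_option autoImplicit false

noncomputable section

open MeasureTheory MulAction ProbabilityTheory
open scoped ENNReal ComplexConjugate InnerProductSpace

namespace Fermat.Agent.LT

section emb

variable {H E : Type*} [NormedAddCommGroup H] [InnerProductSpace ℂ H] [CompleteSpace H]
  [NormedAddCommGroup E] [InnerProductSpace ℂ E]

theorem completeSpace_range (j : H →ₗᵢ[ℂ] E) : CompleteSpace (LinearMap.range j.toLinearMap) := by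
  have h : IsComplete (Set.range j) := j.isometry.isUniformInducing.isComplete_range
  exact h.completeSpace_coe

/-- The basis of the image. -/
def mapBasis {ι : Type*} (j : H →ₗᵢ[ℂ] E) (b : HilbertBasis ι ℂ H) :
    HilbertBasis ι ℂ (LinearMap.range j.toLinearMap) :=
  ⟨j.equivRange.symm.trans b.repr⟩

omit [CompleteSpace H] in
theorem mapBasis_apply {ι : Type*} (j : H →ₗᵢ[ℂ] E) (b : HilbertBasis ι ℂ H) (i : ι) :
    ((mapBasis j b i : LinearMap.range j.toLinearMap) : E) = j (b i) := by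
  classical
  rw [← (mapBasis j b).repr_symm_single, ← b.repr_symm_single]
  rfl

end emb

section bound

variable {G Z : Type*} [Group G] [MeasurableSpace Z] [MulAction G Z] {ν : Measure Z}
  {H : Type*} [NormedAddCommGroup H] [InnerProductSpace ℂ H]

/-- An operator bounded into `L^∞` is a Hilbert–Schmidt operator. -/
theorem isHS_of_ae_bound [IsFiniteMeasure ν] (T : H →L[ℂ] autL2 G ν) {C : ℝ}
    (hT : ∀ v, ∀ᵐ z ∂ν, ‖arep (T v) z‖ ≤ C * ‖v‖) : IsHS (H := H) (G := autL2 G ν) T := by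
  have h1 : HSBound ((autL2 G ν).subtypeL ∘L T) (C ^ 2 * ν.real Set.univ) := by
    refine hsBound_of_ae fun v => ?_
    filter_upwards [hT v, coeFn_ae_arep (T v)] with z h2 h3
    have h4 : (((autL2 G ν).subtypeL ∘L T) v : Z → ℂ) z = arep (T v) z := h3
    rw [h4]
    exact h2
  exact ⟨_, h1.of_norm_le T fun v => le_rfl⟩

end bound

section main

variable {G Z : Type*} [Group G] [Countable G] [MeasurableSpace Z] [MulAction G Z]
  [MeasurableConstSMul G Z] {μ : Measure Z} [SMulInvariantMeasure G Z μ] [SFinite μ]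
  {w : Z → ℝ≥0∞} {σ : G ≃* G} {τ τ' : Z → Z} {c c₁ c₂ : Z → Z → ℂ} {C C₁ C₂ : ℝ≥0∞}
  {H : Type*} [NormedAddCommGroup H] [InnerProductSpace ℂ H] [CompleteSpace H]

/-- **The simple twisted trace formula** on a Hilbert space `j : H → L²(G \ Z)`. -/
theorem sttf_emb [SecondCountableTopology (Lp ℂ 2 (μ.withDensity w))]
    (hw : IsWeight G w) (h₁ : KerHyp G μ (Kernel.const Z μ) c₁ C₁)
    (h₂ : KerHyp G μ (Kernel.const Z μ) c₂ C₂) (hτ : TwAut G μ σ τ τ')
    {S : autL2 G (μ.withDensity w) →L[ℂ] autL2 G (μ.withDensity w)}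
    (hS : ∀ f, arep (S f) =ᵐ[μ.withDensity w] fun z => arep f (τ' z))
    (j : H →ₗᵢ[ℂ] autL2 G (μ.withDensity w))
    (hkill₁ : ∀ f, (∀ v, ⟪j v, f⟫_ℂ = 0) → h₁.adj.opL hw f = 0)
    (hkill₂ : ∀ f, (∀ v, ⟪j v, f⟫_ℂ = 0) → h₂.opL hw (S f) = 0)
    {T₁ T₂ : H →L[ℂ] autL2 G (μ.withDensity w)} (hT₁ : ∀ v, T₁ v = h₁.adj.opL hw (j v))
    (hT₂ : ∀ v, T₂ v = h₂.opL hw (S (j v)))
    (hs₁ : IsHS (H := H) (G := autL2 G (μ.withDensity w)) T₁)
    (hs₂ : IsHS (H := H) (G := autL2 G (μ.withDensity w)) T₂)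
    (hr₁ : ∀ᵐ x ∂μ.withDensity w, MemLp (fun y => aut G c₁ y x) 2 (μ.withDensity w))
    (hr₂ : ∀ᵐ x ∂μ.withDensity w, MemLp (fun y => aut G c₂ x y) 2 (μ.withDensity w))
    (hcomp : ∀ x z, ∑' g : G, ∫⁻ y, ‖c₁ x y * c₂ y (g • z)‖ₑ ∂μ ≠ ∞)
    {ι : Type*} (b : HilbertBasis ι ℂ H) :
    HasSum (fun i => ⟪j (b i), h₁.opL hw (h₂.opL hw (S (j (b i))))⟫_ℂ)
      (∫ z, aut G (kcomp μ c₁ c₂) z (τ z) ∂μ.withDensity w) := by
  have hc := completeSpace_range j
  set V : Submodule ℂ (autL2 G (μ.withDensity w)) := LinearMap.range j.toLinearMap with hV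
  have hperp : ∀ f ∈ Vᗮ, ∀ v, ⟪j v, f⟫_ℂ = 0 := by
    intro f hf v
    exact (Submodule.mem_orthogonal _ _).mp hf _ ⟨v, rfl⟩
  -- Hilbert–Schmidt operators on the image
  have hHS : ∀ {T : H →L[ℂ] autL2 G (μ.withDensity w)}
      {R : V →L[ℂ] autL2 G (μ.withDensity w)}, (∀ v, T v = R ⟨j v, ⟨v, rfl⟩⟩) →
      IsHS (H := H) (G := autL2 G (μ.withDensity w)) T →
      IsHS (H := V) (G := autL2 G (μ.withDensity w)) R := by
    rintro T R hTR ⟨B, hB⟩
    refine ⟨B, fun n e he => ?_⟩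
    let e' : Fin n → H := fun i => j.equivRange.symm (e i)
    have he' : Orthonormal ℂ e' := he.comp_linearIsometry j.equivRange.symm.toLinearIsometry
    have h3 := hB n e' he'
    refine le_trans (le_of_eq ?_) h3
    refine Finset.sum_congr rfl fun i _ => ?_
    rw [hTR]
    have h4 : (⟨j (e' i), ⟨e' i, rfl⟩⟩ : V) = e i := j.equivRange.apply_symm_apply (e i)
    rw [h4]
  have key := sttf_aut hw h₁ h₂ hτ hS (V := V) (fun f hf => hkill₁ f (hperp f hf))
    (fun f hf => hkill₂ f (hperp f hf)) (T₁ := h₁.adj.opL hw ∘L V.subtypeL)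
    (T₂ := (h₂.opL hw ∘L S) ∘L V.subtypeL) (fun _ => rfl) (fun _ => rfl)
    (hHS hT₁ hs₁) (hHS hT₂ hs₂) hr₁ hr₂ hcomp (mapBasis j b)
  have e : ∀ i, ((mapBasis j b i : V) : autL2 G (μ.withDensity w)) = j (b i) :=
    mapBasis_apply j b
  have e2 : (fun i => ⟪j (b i), h₁.opL hw (h₂.opL hw (S (j (b i))))⟫_ℂ) = fun i =>
      ⟪((mapBasis j b i : V) : autL2 G (μ.withDensity w)), h₁.opL hw (h₂.opL hw
        (S ((mapBasis j b i : V) : autL2 G (μ.withDensity w))))⟫_ℂ := by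
    funext i
    rw [e i]
  rw [e2]
  exact key

end main

end Fermat.Agent.LT

end
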