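import Fermat.Agent.LT.Sttf.NKer

/-!
# The trace formula for finite linear combinations of nice kernels
-/

set_option autoImplicit false

noncomputable section

open MeasureTheory MulAction ProbabilityTheory
open scoped ENNReal ComplexConjugate InnerProductSpace

namespace Fermat.Agent.LT

/-! ### Linear combinations -/

section lin

variable {𝒮 Z : Type*}

/-- The linear combination of kernels. -/
def linK (K : 𝒮 → Z → Z → ℂ) (P : 𝒮 →₀ ℂ) (z z' : Z) : ℂ := P.sum fun s a => a * K s z z'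

theorem linK_zero (K : 𝒮 → Z → Z → ℂ) : linK K 0 = fun _ _ => 0 := rfl

theorem linK_single (K : 𝒮 → Z → Z → ℂ) (s : 𝒮) (a : ℂ) :
    linK K (Finsupp.single s a) = fun z z' => a * K s z z' := by
  funext z z'
  unfold linK
  rw [Finsupp.sum_single_index (by rw [zero_mul])]

theorem linK_add (K : 𝒮 → Z → Z → ℂ) (P Q : 𝒮 →₀ ℂ) :
    linK K (P + Q) = fun z z' => linK K P z z' + linK K Q z z' := by
  classical
  funext z z'
  unfold linK
  rw [Finsupp.sum_add_index' (fun s => by rw [zero_mul]) (fun s a b => by rw [add_mul])]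

section smul

variable {M : Type*} [AddCommMonoid M] [Module ℂ M] (f : 𝒮 → M)

theorem sum_smul_zero : ((0 : 𝒮 →₀ ℂ).sum fun s a => a • f s) = 0 := rfl

theorem sum_smul_add (P Q : 𝒮 →₀ ℂ) : ((P + Q).sum fun s a => a • f s) =
    (P.sum fun s a => a • f s) + Q.sum fun s a => a • f s := by
  classical
  exact Finsupp.sum_add_index' (fun s => zero_smul _ _) (fun s a b => add_smul _ _ _)

theorem sum_smul_single (s : 𝒮) (a : ℂ) : ((Finsupp.single s a).sum fun s a => a • f s) =
    a • f s := Finsupp.sum_single_index (zero_smul _ _)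

end smul

/-- Convolution of linear combinations. -/
def conv [Mul 𝒮] (P Q : 𝒮 →₀ ℂ) : 𝒮 →₀ ℂ :=
  P.sum fun s a => Q.sum fun t b => Finsupp.single (s * t) (a * b)

theorem conv_zero_left [Mul 𝒮] (Q : 𝒮 →₀ ℂ) : conv 0 Q = 0 := rfl

theorem conv_single_left [Mul 𝒮] (s : 𝒮) (a : ℂ) (Q : 𝒮 →₀ ℂ) :
    conv (Finsupp.single s a) Q = Q.sum fun t b => Finsupp.single (s * t) (a * b) := by
  unfold conv
  rw [Finsupp.sum_single_index]
  simp

theorem conv_add_left [Mul 𝒮] (P P' Q : 𝒮 →₀ ℂ) : conv (P + P') Q = conv P Q + conv P' Q := by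
  classical
  unfold conv
  rw [Finsupp.sum_add_index']
  · intro s
    simp
  · intro s a b
    rw [← Finsupp.sum_add]
    refine Finsupp.sum_congr fun t _ => ?_
    rw [add_mul, Finsupp.single_add]

theorem conv_single_single [Mul 𝒮] (s t : 𝒮) (a b : ℂ) :
    conv (Finsupp.single s a) (Finsupp.single t b) = Finsupp.single (s * t) (a * b) := by
  rw [conv_single_left, Finsupp.sum_single_index (by simp)]

theorem conv_zero_right [Mul 𝒮] (P : 𝒮 →₀ ℂ) : conv P 0 = 0 := by
  unfold conv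
  simp

theorem conv_add_right [Mul 𝒮] (P Q Q' : 𝒮 →₀ ℂ) : conv P (Q + Q') = conv P Q + conv P Q' := by
  classical
  unfold conv
  rw [← Finsupp.sum_add]
  refine Finsupp.sum_congr fun s _ => ?_
  rw [Finsupp.sum_add_index']
  · intro t
    simp
  · intro t a b
    rw [mul_add, Finsupp.single_add]

/-- The support of a convolution. -/
theorem exists_of_mem_conv [Mul 𝒮] [DecidableEq 𝒮] {P Q : 𝒮 →₀ ℂ} {u : 𝒮}
    (hu : u ∈ (conv P Q).support) : ∃ s ∈ P.support, ∃ t ∈ Q.support, u = s * t := by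
  unfold conv at hu
  obtain ⟨s, hs, hu⟩ := Finset.mem_biUnion.mp (Finsupp.support_finsetSum hu)
  obtain ⟨t, ht, hu⟩ := Finset.mem_biUnion.mp (Finsupp.support_finsetSum hu)
  refine ⟨s, hs, t, ht, ?_⟩
  have h := Finsupp.support_single_subset hu
  simpa using h

/-- Linear functionals on convolutions. -/
theorem sum_conv [Mul 𝒮] {M : Type*} [AddCommMonoid M] [Module ℂ M] (f : 𝒮 → M)
    (P Q : 𝒮 →₀ ℂ) : ((conv P Q).sum fun s a => a • f s) =
      P.sum fun s a => Q.sum fun t b => (a * b) • f (s * t) := by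
  classical
  unfold conv
  rw [Finsupp.sum_sum_index (h := fun s a => a • f s) (fun s => zero_smul _ _)
    (fun s a b => add_smul _ _ _)]
  refine Finsupp.sum_congr fun s _ => ?_
  rw [Finsupp.sum_sum_index (h := fun s a => a • f s) (fun s => zero_smul _ _)
    (fun s a b => add_smul _ _ _)]
  refine Finsupp.sum_congr fun t _ => ?_
  rw [Finsupp.sum_single_index (h := fun s a => a • f s) (zero_smul _ _)]

end lin

/-! ### Nice kernels -/

section nice

variable {G Z 𝒮 : Type*} [Group G] [Countable G] [MeasurableSpace Z] [MulAction G Z]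
  [MeasurableConstSMul G Z] {μ : Measure Z} [SMulInvariantMeasure G Z μ] [SFinite μ]
  {K : 𝒮 → Z → Z → ℂ} {w : Z → ℝ≥0∞}

omit [Countable G] in
/-- Finite linear combinations of nice kernels are nice. -/
theorem nker_linK (hK : ∀ s, NKer G μ (K s)) (P : 𝒮 →₀ ℂ) : NKer G μ (linK K P) := by
  induction P using Finsupp.induction_linear with
  | zero =>
    rw [linK_zero]
    exact NKer.zero
  | add P Q hP hQ =>
    rw [linK_add]
    exact hP.add hQ
  | single s a =>
    rw [linK_single]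
    exact (hK s).const_mul a

omit [SFinite μ] in
theorem kcomp_add_left {c c' c'' : Z → Z → ℂ} (h : NKer G μ c) (h' : NKer G μ c')
    (h'' : NKer G μ c'') (x z : Z) :
    kcomp μ (fun z z' => c z z' + c' z z') c'' x z = kcomp μ c c'' x z + kcomp μ c' c'' x z := by
  unfold kcomp
  rw [← integral_add (h.integrable_comp h'' x z) (h'.integrable_comp h'' x z)]
  simp only [add_mul]

omit [SFinite μ] in
theorem kcomp_add_right {c c' c'' : Z → Z → ℂ} (h : NKer G μ c) (h' : NKer G μ c')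
    (h'' : NKer G μ c'') (x z : Z) :
    kcomp μ c'' (fun z z' => c z z' + c' z z') x z = kcomp μ c'' c x z + kcomp μ c'' c' x z := by
  unfold kcomp
  rw [← integral_add (h''.integrable_comp h x z) (h''.integrable_comp h' x z)]
  simp only [mul_add]

omit [Countable G] [MeasurableConstSMul G Z] [SMulInvariantMeasure G Z μ] [SFinite μ]
  [MulAction G Z] [Group G] in
theorem kcomp_const_mul_left {c c'' : Z → Z → ℂ} (a : ℂ) (x z : Z) :
    kcomp μ (fun z z' => a * c z z') c'' x z = a * kcomp μ c c'' x z := by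
  unfold kcomp
  rw [← integral_const_mul]
  simp only [mul_assoc]

omit [Countable G] [MeasurableConstSMul G Z] [SMulInvariantMeasure G Z μ] [SFinite μ]
  [MulAction G Z] [Group G] in
theorem kcomp_const_mul_right {c c'' : Z → Z → ℂ} (a : ℂ) (x z : Z) :
    kcomp μ c'' (fun z z' => a * c z z') x z = a * kcomp μ c'' c x z := by
  unfold kcomp
  rw [← integral_const_mul]
  simp only [mul_left_comm]

/-- The composition of linear combinations. -/
theorem kcomp_linK [Mul 𝒮] (hK : ∀ s, NKer G μ (K s))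
    (hm : ∀ s t x z, kcomp μ (K s) (K t) x z = K (s * t) x z) (P Q : 𝒮 →₀ ℂ) (x z : Z) :
    kcomp μ (linK K P) (linK K Q) x z = linK K (conv P Q) x z := by
  induction P using Finsupp.induction_linear with
  | zero =>
    rw [conv_zero_left, linK_zero]
    unfold kcomp
    simp
  | add P P' hP hP' =>
    rw [conv_add_left, linK_add, linK_add,
      kcomp_add_left (nker_linK hK P) (nker_linK hK P') (nker_linK hK Q), hP, hP']
  | single s a =>
    induction Q using Finsupp.induction_linear with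
    | zero =>
      rw [conv_zero_right, linK_zero]
      unfold kcomp
      simp
    | add Q Q' hQ hQ' =>
      rw [conv_add_right, linK_add, linK_add,
        kcomp_add_right (nker_linK hK Q) (nker_linK hK Q') (nker_linK hK _), hQ, hQ']
    | single t b =>
      rw [conv_single_single, linK_single, linK_single, linK_single, kcomp_const_mul_left,
        kcomp_const_mul_right, hm]
      ring

/-- The operator of a linear combination. -/
theorem op_linK (hK : ∀ s, NKer G μ (K s)) (hw : IsWeight G w) (P : 𝒮 →₀ ℂ)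
    {f : 𝒮 → (autL2 G (μ.withDensity w) →L[ℂ] autL2 G (μ.withDensity w))}
    (hf : ∀ s, (hK s).op hw = f s) :
    (nker_linK hK P).op hw = P.sum fun s a => a • f s := by
  induction P using Finsupp.induction_linear with
  | zero =>
    rw [sum_smul_zero]
    exact (NKer.op_congr _ NKer.zero hw (linK_zero K)).trans (NKer.op_zero hw)
  | add P Q hP hQ =>
    rw [sum_smul_add, ← hP, ← hQ]
    exact (NKer.op_congr _ ((nker_linK hK P).add (nker_linK hK Q)) hw (linK_add K P Q)).trans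
      (NKer.op_add _ _ hw)
  | single s a =>
    rw [sum_smul_single, ← hf s]
    exact (NKer.op_congr _ ((hK s).const_mul a) hw (linK_single K s a)).trans
      (NKer.op_const_mul _ a hw)

end nice

/-! ### The diagonal of a linear combination -/

section diag

variable {G Z 𝒮 : Type*} [Group G] [Countable G] [MeasurableSpace Z] [MulAction G Z]
  [MeasurableConstSMul G Z] {μ : Measure Z} [SMulInvariantMeasure G Z μ] [SFinite μ]
  {K : 𝒮 → Z → Z → ℂ} {c : Z → Z → ℂ} {ν : Measure Z} {τ : Z → Z}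

omit [Countable G] [MeasurableConstSMul G Z] [SMulInvariantMeasure G Z μ] [SFinite μ] in
theorem NKer.summable_row (h : NKer G μ c) (x z : Z) : Summable fun g : G => c x (g • z) := by
  obtain ⟨M, hM, hM'⟩ := h.rowb x
  exact summable_of_tsum_enorm (ne_top_of_le_ne_top hM (hM' z))

omit [Countable G] in
/-- The automorphic kernel of a linear combination. -/
theorem aut_linK (hK : ∀ s, NKer G μ (K s)) (P : 𝒮 →₀ ℂ) (x z : Z) :
    aut G (linK K P) x z = P.sum fun s a => a • aut G (K s) x z := by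
  induction P using Finsupp.induction_linear with
  | zero =>
    rw [sum_smul_zero, linK_zero]
    unfold aut
    simp
  | add P Q hP hQ =>
    rw [sum_smul_add (fun s => aut G (K s) x z), ← hP, ← hQ]
    unfold aut
    rw [← ((nker_linK hK P).summable_row x z).tsum_add ((nker_linK hK Q).summable_row x z)]
    rw [linK_add]
  | single s a =>
    rw [sum_smul_single (fun s => aut G (K s) x z), linK_single]
    unfold aut
    rw [smul_eq_mul, ← tsum_mul_left]

/-- Integrability of the twisted diagonal. -/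
theorem integrable_aut_twist (hm : Measurable (Function.uncurry c)) (hτ : Measurable τ)
    (hfin : ∫⁻ z, ∑' g : G, ‖c z (g • τ z)‖ₑ ∂ν ≠ ∞) :
    Integrable (fun z => aut G c z (τ z)) ν := by
  refine ⟨((measurable_aut hm).comp (measurable_id.prodMk hτ)).aestronglyMeasurable, ?_⟩
  rw [HasFiniteIntegral]
  refine lt_of_le_of_lt (lintegral_mono fun z => ?_) (lt_top_iff_ne_top.mpr hfin)
  exact enorm_tsum_le_tsum_enorm _

/-- **The twisted diagonal of a linear combination.** -/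
theorem integral_aut_linK (hK : ∀ s, NKer G μ (K s)) (hτ : Measurable τ) (P : 𝒮 →₀ ℂ)
    (hfin : ∀ s ∈ P.support, ∫⁻ z, ∑' g : G, ‖K s z (g • τ z)‖ₑ ∂ν ≠ ∞) :
    ∫ z, aut G (linK K P) z (τ z) ∂ν = P.sum fun s a => a • ∫ z, aut G (K s) z (τ z) ∂ν := by
  simp_rw [aut_linK hK]
  unfold Finsupp.sum
  rw [integral_finsetSum _ fun s hs => ?_]
  · refine Finset.sum_congr rfl fun s _ => ?_
    rw [integral_smul]
  · exact (integrable_aut_twist (hK s).meas hτ (hfin s hs)).smul (P s)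

end diag

/-! ### The trace formula -/

section main

variable {G Z : Type*} [Group G] [Countable G] [MeasurableSpace Z] [MulAction G Z]
  [MeasurableConstSMul G Z] {μ : Measure Z} [SMulInvariantMeasure G Z μ] [SFinite μ]
  {w : Z → ℝ≥0∞} {σ : G ≃* G} {τ τ' : Z → Z} {c₁ c₂ : Z → Z → ℂ}
  {H : Type*} [NormedAddCommGroup H] [InnerProductSpace ℂ H] [CompleteSpace H]

/-- **The simple twisted trace formula** for nice kernels. -/
theorem NKer.sttf [SecondCountableTopology (Lp ℂ 2 (μ.withDensity w))]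
    [IsFiniteMeasure (μ.withDensity w)]
    (hw : IsWeight G w) (h₁ : NKer G μ c₁) (h₂ : NKer G μ c₂) (hτ : TwAut G μ σ τ τ')
    {S : autL2 G (μ.withDensity w) →L[ℂ] autL2 G (μ.withDensity w)}
    (hS : ∀ f, arep (S f) =ᵐ[μ.withDensity w] fun z => arep f (τ' z))
    (j : H →ₗᵢ[ℂ] autL2 G (μ.withDensity w))
    (hkill₁ : ∀ f, (∀ v, ⟪j v, f⟫_ℂ = 0) → ContinuousLinearMap.adjoint (h₁.op hw) f = 0)
    (hkill₂ : ∀ f, (∀ v, ⟪j v, f⟫_ℂ = 0) → h₂.op hw (S f) = 0)
    {T₁ T₂ : H →L[ℂ] autL2 G (μ.withDensity w)}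
    (hT₁ : ∀ v, T₁ v = ContinuousLinearMap.adjoint (h₁.op hw) (j v))
    (hT₂ : ∀ v, T₂ v = h₂.op hw (S (j v)))
    (hs₁ : IsHS (H := H) (G := autL2 G (μ.withDensity w)) T₁)
    (hs₂ : IsHS (H := H) (G := autL2 G (μ.withDensity w)) T₂)
    {ι : Type*} (b : HilbertBasis ι ℂ H) :
    HasSum (fun i => ⟪j (b i), h₁.op hw (h₂.op hw (S (j (b i))))⟫_ℂ)
      (∫ z, aut G (kcomp μ c₁ c₂) z (τ z) ∂μ.withDensity w) := by
  have e1 : ContinuousLinearMap.adjoint (h₁.op hw) = h₁.hyp.choose_spec.adj.opL hw :=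
    h₁.hyp.choose_spec.adjoint_opL hw
  rw [e1] at hT₁ hkill₁
  exact sttf_emb hw h₁.hyp.choose_spec h₂.hyp.choose_spec hτ hS j hkill₁ hkill₂ hT₁ hT₂ hs₁ hs₂
    (Filter.Eventually.of_forall h₁.memLp_col) (Filter.Eventually.of_forall h₂.memLp_row)
    (h₁.comp_ne_top h₂) b

variable {𝒮 : Type*} [Mul 𝒮] {K : 𝒮 → Z → Z → ℂ}
  {f : 𝒮 → (autL2 G (μ.withDensity w) →L[ℂ] autL2 G (μ.withDensity w))}

/-- **The trace formula for linear combinations.** -/
theorem sttf_lin [SecondCountableTopology (Lp ℂ 2 (μ.withDensity w))]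
    [IsFiniteMeasure (μ.withDensity w)]
    (hw : IsWeight G w) (hK : ∀ s, NKer G μ (K s))
    (hm : ∀ s t x z, kcomp μ (K s) (K t) x z = K (s * t) x z)
    (hf : ∀ s, (hK s).op hw = f s) (hτ : TwAut G μ σ τ τ')
    {S : autL2 G (μ.withDensity w) →L[ℂ] autL2 G (μ.withDensity w)}
    (hS : ∀ f, arep (S f) =ᵐ[μ.withDensity w] fun z => arep f (τ' z))
    (j : H →ₗᵢ[ℂ] autL2 G (μ.withDensity w)) (P₁ P₂ : 𝒮 →₀ ℂ)
    (hkill₁ : ∀ g, (∀ v, ⟪j v, g⟫_ℂ = 0) →
      ContinuousLinearMap.adjoint (P₁.sum fun s a => a • f s) g = 0)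
    (hkill₂ : ∀ g, (∀ v, ⟪j v, g⟫_ℂ = 0) → (P₂.sum fun s a => a • f s) (S g) = 0)
    {T₁ T₂ : H →L[ℂ] autL2 G (μ.withDensity w)}
    (hT₁ : ∀ v, T₁ v = ContinuousLinearMap.adjoint (P₁.sum fun s a => a • f s) (j v))
    (hT₂ : ∀ v, T₂ v = (P₂.sum fun s a => a • f s) (S (j v)))
    (hs₁ : IsHS (H := H) (G := autL2 G (μ.withDensity w)) T₁)
    (hs₂ : IsHS (H := H) (G := autL2 G (μ.withDensity w)) T₂)
    {ι : Type*} (b : HilbertBasis ι ℂ H) :
    HasSum (fun i => ⟪j (b i), (P₁.sum fun s a => a • f s)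
      ((P₂.sum fun s a => a • f s) (S (j (b i))))⟫_ℂ)
      (∫ z, aut G (linK K (conv P₁ P₂)) z (τ z) ∂μ.withDensity w) := by
  have h₁ := op_linK hK hw P₁ hf
  have h₂ := op_linK hK hw P₂ hf
  rw [← h₁] at hkill₁ hT₁ ⊢
  rw [← h₂] at hkill₂ hT₂ ⊢
  have key := NKer.sttf hw (nker_linK hK P₁) (nker_linK hK P₂) hτ hS j hkill₁ hkill₂ hT₁ hT₂
    hs₁ hs₂ b
  have e : kcomp μ (linK K P₁) (linK K P₂) = linK K (conv P₁ P₂) := by
    funext x z
    exact kcomp_linK hK hm P₁ P₂ x z
  rw [e] at key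
  exact key

/-- **The trace formula for linear combinations**, with pointwise bounds and with the convergence
of all the terms. -/
theorem sttf_lin' [SecondCountableTopology (Lp ℂ 2 (μ.withDensity w))]
    [IsFiniteMeasure (μ.withDensity w)]
    (hw : IsWeight G w) (hK : ∀ s, NKer G μ (K s))
    (hm : ∀ s t x z, kcomp μ (K s) (K t) x z = K (s * t) x z)
    (hf : ∀ s, (hK s).op hw = f s) (hτ : TwAut G μ σ τ τ')
    {S : autL2 G (μ.withDensity w) →L[ℂ] autL2 G (μ.withDensity w)}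
    (hS : ∀ f, arep (S f) =ᵐ[μ.withDensity w] fun z => arep f (τ' z))
    (j : H →ₗᵢ[ℂ] autL2 G (μ.withDensity w)) (P₁ P₂ : 𝒮 →₀ ℂ)
    (hkill₁ : ∀ g, (∀ v, ⟪j v, g⟫_ℂ = 0) →
      ContinuousLinearMap.adjoint (P₁.sum fun s a => a • f s) g = 0)
    (hkill₂ : ∀ g, (∀ v, ⟪j v, g⟫_ℂ = 0) → (P₂.sum fun s a => a • f s) (S g) = 0)
    {B₁ B₂ : ℝ} (hb₁ : ∀ v, ∀ᵐ z ∂μ.withDensity w,
      ‖arep (ContinuousLinearMap.adjoint (P₁.sum fun s a => a • f s) (j v)) z‖ ≤ B₁ * ‖v‖)
    (hb₂ : ∀ v, ∀ᵐ z ∂μ.withDensity w,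
      ‖arep ((P₂.sum fun s a => a • f s) (S (j v))) z‖ ≤ B₂ * ‖v‖)
    (hfin : ∀ s ∈ (conv P₁ P₂).support,
      ∫⁻ z, ∑' g : G, ‖K s z (g • τ z)‖ₑ ∂μ.withDensity w ≠ ∞)
    {ι : Type*} (b : HilbertBasis ι ℂ H) :
    HasSum (fun i => ⟪j (b i), (P₁.sum fun s a => a • f s)
      ((P₂.sum fun s a => a • f s) (S (j (b i))))⟫_ℂ)
      (P₁.sum fun s a => P₂.sum fun t b => (a * b) •
        ∫ z, aut G (K (s * t)) z (τ z) ∂μ.withDensity w) := by
  have key := sttf_lin hw hK hm hf hτ hS j P₁ P₂ hkill₁ hkill₂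
    (T₁ := ContinuousLinearMap.adjoint (P₁.sum fun s a => a • f s) ∘L j.toContinuousLinearMap)
    (T₂ := (P₂.sum fun s a => a • f s) ∘L S ∘L j.toContinuousLinearMap)
    (fun v => rfl) (fun v => rfl) (isHS_of_ae_bound _ hb₁) (isHS_of_ae_bound _ hb₂) b
  rwa [integral_aut_linK hK hτ.mp.measurable _ hfin, sum_conv] at key

end main

end Fermat.Agent.LT

end
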