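import Fermat.Agent.LT.Sttf.Emb
import Fermat.Agent.LT.Auto.Disc

/-!
# Nice kernels and their finite linear combinations
-/

set_option autoImplicit false

noncomputable section

open MeasureTheory MulAction ProbabilityTheory
open scoped ENNReal ComplexConjugate InnerProductSpace

namespace Fermat.Agent.LT

/-! ### Sums of operators with kernels -/

section add

variable {G Z : Type*} [Group G] [MeasurableSpace Z] [MulAction G Z] {μ : Measure Z}
  {κ : Kernel Z Z} {c c' : Z → Z → ℂ} {C C' : ℝ≥0∞}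

theorem KerHyp.add (h : KerHyp G μ κ c C) (h' : KerHyp G μ κ c' C') :
    KerHyp G μ κ (fun z z' => c z z' + c' z z') (C + C') where
  rev := h.rev
  meas := h.meas.add h'.meas
  inv g z z' := by rw [h.inv, h'.inv]
  ne_top := ENNReal.add_ne_top.mpr ⟨h.ne_top, h'.ne_top⟩
  row z := by
    refine (lintegral_mono fun z' => enorm_add_le _ _).trans ?_
    rw [lintegral_add_left (h.meas_left z).enorm]
    exact add_le_add (h.row z) (h'.row z)
  col z := by
    refine (lintegral_mono fun z' => enorm_add_le _ _).trans ?_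
    rw [lintegral_add_left (h.meas_right z).enorm]
    exact add_le_add (h.col z) (h'.col z)

theorem KerHyp.const_mul (h : KerHyp G μ κ c C) (a : ℂ) :
    KerHyp G μ κ (fun z z' => a * c z z') (‖a‖ₑ * C) where
  rev := h.rev
  meas := h.meas.const_mul a
  inv g z z' := by rw [h.inv]
  ne_top := ENNReal.mul_ne_top enorm_ne_top h.ne_top
  row z := by
    simp_rw [enorm_mul]
    rw [lintegral_const_mul _ (h.meas_left z).enorm]
    gcongr
    exact h.row z
  col z := by
    simp_rw [enorm_mul]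
    rw [lintegral_const_mul _ (h.meas_right z).enorm]
    gcongr
    exact h.col z

theorem kerHyp_zero (hκ : RevKer G μ κ) : KerHyp G μ κ (fun _ _ : Z => (0 : ℂ)) 0 where
  rev := hκ
  meas := measurable_const
  inv g z z' := rfl
  ne_top := ENNReal.zero_ne_top
  row z := by simp
  col z := by simp

end add

section opadd

variable {G Z : Type*} [Group G] [Countable G] [MeasurableSpace Z] [MulAction G Z]
  [MeasurableConstSMul G Z] {μ : Measure Z} [SMulInvariantMeasure G Z μ] [SFinite μ]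
  {w : Z → ℝ≥0∞} {c c' : Z → Z → ℂ} {C C' C'' : ℝ≥0∞}

theorem KerHyp.opL_congr (h : KerHyp G μ (Kernel.const Z μ) c C)
    (h' : KerHyp G μ (Kernel.const Z μ) c' C') (hw : IsWeight G w) (hcc : c = c') :
    h.opL hw = h'.opL hw := by
  subst hcc
  refine ContinuousLinearMap.ext fun f => autL2_ext ?_
  exact (h.opL_apply_ae hw f).trans (h'.opL_apply_ae hw f).symm

theorem KerHyp.opL_add (h : KerHyp G μ (Kernel.const Z μ) c C)
    (h' : KerHyp G μ (Kernel.const Z μ) c' C')
    (h'' : KerHyp G μ (Kernel.const Z μ) (fun z z' => c z z' + c' z z') C'')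
    (hw : IsWeight G w) : h''.opL hw = h.opL hw + h'.opL hw := by
  refine ContinuousLinearMap.ext fun f => autL2_ext ?_
  rw [add_apply]
  have hi := h.ae_integrable hw (measurable_arep f) (arep_smul f) (memLp_arep f)
  have hi' := h'.ae_integrable hw (measurable_arep f) (arep_smul f) (memLp_arep f)
  filter_upwards [h''.opL_apply_ae hw f, h.opL_apply_ae hw f, h'.opL_apply_ae hw f,
    arep_add (h.opL hw f) (h'.opL hw f), hi, hi'] with z h1 h2 h3 h4 h5 h6
  rw [h1, h4, Pi.add_apply, h2, h3]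
  unfold kop
  rw [← integral_add h5 h6]
  refine integral_congr_ae (Filter.Eventually.of_forall fun z' => ?_)
  dsimp only
  ring

theorem KerHyp.opL_const_mul (h : KerHyp G μ (Kernel.const Z μ) c C) (a : ℂ)
    (h' : KerHyp G μ (Kernel.const Z μ) (fun z z' => a * c z z') C')
    (hw : IsWeight G w) : h'.opL hw = a • h.opL hw := by
  refine ContinuousLinearMap.ext fun f => autL2_ext ?_
  rw [smul_apply]
  filter_upwards [h'.opL_apply_ae hw f, h.opL_apply_ae hw f,
    arep_csmul a (h.opL hw f)] with z h1 h2 h3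
  rw [h1, h3, Pi.smul_apply, h2, smul_eq_mul]
  unfold kop
  rw [← integral_const_mul]
  refine integral_congr_ae (Filter.Eventually.of_forall fun z' => ?_)
  dsimp only
  ring

end opadd

/-! ### Nice kernels -/

/-- A kernel which satisfies Schur's bounds and whose periodisation converges, locally uniformly
in one variable and uniformly in the other. -/
structure NKer (G : Type*) {Z : Type*} [Group G] [MeasurableSpace Z] [MulAction G Z]
    (μ : Measure Z) (c : Z → Z → ℂ) : Prop where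
  hyp : ∃ C, KerHyp G μ (Kernel.const Z μ) c C
  rowb : ∀ x, ∃ M : ℝ≥0∞, M ≠ ∞ ∧ ∀ y, ∑' g : G, ‖c x (g • y)‖ₑ ≤ M
  colb : ∀ x, ∃ M : ℝ≥0∞, M ≠ ∞ ∧ ∀ y, ∑' g : G, ‖c y (g • x)‖ₑ ≤ M

namespace NKer

variable {G Z : Type*} [Group G] [MeasurableSpace Z] [MulAction G Z] {μ : Measure Z}
  {c c' : Z → Z → ℂ} {w : Z → ℝ≥0∞} {ν : Measure Z}

theorem meas (h : NKer G μ c) : Measurable (Function.uncurry c) := h.hyp.choose_spec.meas

theorem inv (h : NKer G μ c) (g : G) (z z' : Z) : c (g • z) (g • z') = c z z' :=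
  h.hyp.choose_spec.inv g z z'

/-- A criterion. -/
theorem of_count {C : ℝ≥0∞} (h : KerHyp G μ (Kernel.const Z μ) c C) {B : ℝ≥0∞} (hB : B ≠ ∞)
    (hc : ∀ z z', ‖c z z'‖ₑ ≤ B)
    (h1 : ∀ x, ∃ N : ℕ, ∀ y, ∃ T : Finset G, T.card ≤ N ∧ ∀ g : G, c x (g • y) ≠ 0 → g ∈ T)
    (h2 : ∀ x, ∃ N : ℕ, ∀ y, ∃ T : Finset G, T.card ≤ N ∧ ∀ g : G, c (g • y) x ≠ 0 → g ∈ T) :
    NKer G μ c where
  hyp := ⟨C, h⟩
  rowb x := by
    obtain ⟨N, hN⟩ := h1 x
    refine ⟨N * B, ENNReal.mul_ne_top (ENNReal.natCast_ne_top _) hB, fun y => ?_⟩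
    obtain ⟨T, hT, hT'⟩ := hN y
    calc ∑' g : G, ‖c x (g • y)‖ₑ ≤ T.card * B :=
          tsum_enorm_le_of_finset T (fun g => hc _ _) hT'
      _ ≤ N * B := by gcongr
  colb x := by
    obtain ⟨N, hN⟩ := h2 x
    refine ⟨N * B, ENNReal.mul_ne_top (ENNReal.natCast_ne_top _) hB, fun y => ?_⟩
    obtain ⟨T, hT, hT'⟩ := hN y
    have h3 : ∑' g : G, ‖c y (g • x)‖ₑ = ∑' g : G, ‖c (g • y) x‖ₑ := by
      rw [← (Equiv.inv G).tsum_eq]
      refine tsum_congr fun g => ?_
      rw [Equiv.inv_apply, ← h.inv g, smul_inv_smul]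
    rw [h3]
    calc ∑' g : G, ‖c (g • y) x‖ₑ ≤ T.card * B :=
          tsum_enorm_le_of_finset T (fun g => hc _ _) hT'
      _ ≤ N * B := by gcongr

theorem add (h : NKer G μ c) (h' : NKer G μ c') : NKer G μ fun z z' => c z z' + c' z z' where
  hyp := by
    obtain ⟨C, hC⟩ := h.hyp
    obtain ⟨C', hC'⟩ := h'.hyp
    exact ⟨_, hC.add hC'⟩
  rowb x := by
    obtain ⟨M, hM, hM'⟩ := h.rowb x
    obtain ⟨N, hN, hN'⟩ := h'.rowb x
    refine ⟨M + N, ENNReal.add_ne_top.mpr ⟨hM, hN⟩, fun y => ?_⟩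
    refine (ENNReal.tsum_le_tsum fun g => enorm_add_le _ _).trans ?_
    rw [ENNReal.tsum_add]
    exact add_le_add (hM' y) (hN' y)
  colb x := by
    obtain ⟨M, hM, hM'⟩ := h.colb x
    obtain ⟨N, hN, hN'⟩ := h'.colb x
    refine ⟨M + N, ENNReal.add_ne_top.mpr ⟨hM, hN⟩, fun y => ?_⟩
    refine (ENNReal.tsum_le_tsum fun g => enorm_add_le _ _).trans ?_
    rw [ENNReal.tsum_add]
    exact add_le_add (hM' y) (hN' y)

theorem const_mul (h : NKer G μ c) (a : ℂ) : NKer G μ fun z z' => a * c z z' where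
  hyp := by
    obtain ⟨C, hC⟩ := h.hyp
    exact ⟨_, hC.const_mul a⟩
  rowb x := by
    obtain ⟨M, hM, hM'⟩ := h.rowb x
    refine ⟨‖a‖ₑ * M, ENNReal.mul_ne_top enorm_ne_top hM, fun y => ?_⟩
    simp_rw [enorm_mul]
    rw [ENNReal.tsum_mul_left]
    gcongr
    exact hM' y
  colb x := by
    obtain ⟨M, hM, hM'⟩ := h.colb x
    refine ⟨‖a‖ₑ * M, ENNReal.mul_ne_top enorm_ne_top hM, fun y => ?_⟩
    simp_rw [enorm_mul]
    rw [ENNReal.tsum_mul_left]
    gcongr
    exact hM' y

theorem adj (h : NKer G μ c) : NKer G μ fun z z' => conj (c z' z) where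
  hyp := by
    obtain ⟨C, hC⟩ := h.hyp
    exact ⟨_, hC.adj⟩
  rowb x := by
    obtain ⟨M, hM, hM'⟩ := h.colb x
    refine ⟨M, hM, fun y => (le_of_eq ?_).trans (hM' y)⟩
    rw [← (Equiv.inv G).tsum_eq]
    refine tsum_congr fun g => ?_
    rw [Equiv.inv_apply, ← ofReal_norm, RCLike.norm_conj, ofReal_norm, ← h.inv g, smul_inv_smul]
  colb x := by
    obtain ⟨M, hM, hM'⟩ := h.rowb x
    refine ⟨M, hM, fun y => (le_of_eq ?_).trans (hM' y)⟩
    rw [← (Equiv.inv G).tsum_eq]
    refine tsum_congr fun g => ?_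
    rw [Equiv.inv_apply, ← ofReal_norm, RCLike.norm_conj, ofReal_norm, ← h.inv g, smul_inv_smul]

theorem zero [MeasurableConstSMul G Z] [SMulInvariantMeasure G Z μ] [SFinite μ] :
    NKer G μ fun _ _ : Z => (0 : ℂ) where
  hyp := ⟨0, kerHyp_zero revKer_const⟩
  rowb x := ⟨0, ENNReal.zero_ne_top, fun y => by simp⟩
  colb x := ⟨0, ENNReal.zero_ne_top, fun y => by simp⟩

/-! ### Rows -/

section rows

variable [Countable G] [MeasurableConstSMul G Z]

theorem memLp_row (h : NKer G μ c) [IsFiniteMeasure ν] (x : Z) :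
    MemLp (fun y => aut G c x y) 2 ν := by
  obtain ⟨M, hM, hM'⟩ := h.rowb x
  refine MemLp.of_bound ((measurable_aut h.meas).comp measurable_prodMk_left).aestronglyMeasurable
    M.toReal (Filter.Eventually.of_forall fun y => ?_)
  have h1 : ‖aut G c x y‖ₑ ≤ M := (enorm_tsum_le_tsum_enorm _).trans (hM' y)
  rw [← toReal_enorm]
  exact ENNReal.toReal_mono hM h1

theorem memLp_col (h : NKer G μ c) [IsFiniteMeasure ν] (x : Z) :
    MemLp (fun y => aut G c y x) 2 ν := by
  obtain ⟨M, hM, hM'⟩ := h.colb x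
  refine MemLp.of_bound ((measurable_aut h.meas).comp measurable_prodMk_right).aestronglyMeasurable
    M.toReal (Filter.Eventually.of_forall fun y => ?_)
  have h1 : ‖aut G c y x‖ₑ ≤ M := (enorm_tsum_le_tsum_enorm _).trans (hM' y)
  rw [← toReal_enorm]
  exact ENNReal.toReal_mono hM h1

variable [SMulInvariantMeasure G Z μ]

theorem comp_ne_top (h : NKer G μ c) (h' : NKer G μ c') (x z : Z) :
    ∑' g : G, ∫⁻ y, ‖c x y * c' y (g • z)‖ₑ ∂μ ≠ ∞ := by
  obtain ⟨M, hM, hM'⟩ := h.rowb x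
  obtain ⟨C, hC⟩ := h'.hyp
  have h1 : ∀ g : G, ∫⁻ y, ‖c x y * c' y (g • z)‖ₑ ∂μ = ∫⁻ y, ‖c x (g • y)‖ₑ * ‖c' y z‖ₑ ∂μ := by
    intro g
    rw [← (measurePreserving_smul g μ).lintegral_comp_emb (measurableEmbedding_const_smul g)]
    refine lintegral_congr fun y => ?_
    rw [enorm_mul, h'.inv]
  simp_rw [h1]
  rw [← lintegral_tsum fun g => ?_]
  · have h2 : ∫⁻ y, ∑' g : G, ‖c x (g • y)‖ₑ * ‖c' y z‖ₑ ∂μ ≤ M * C := by
      calc ∫⁻ y, ∑' g : G, ‖c x (g • y)‖ₑ * ‖c' y z‖ₑ ∂μ ≤ ∫⁻ y, M * ‖c' y z‖ₑ ∂μ := by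
            refine lintegral_mono fun y => ?_
            dsimp only
            rw [ENNReal.tsum_mul_right]
            gcongr
            exact hM' y
        _ = M * ∫⁻ y, ‖c' y z‖ₑ ∂μ := lintegral_const_mul _ (hC.meas_right z).enorm
        _ ≤ M * C := by
            gcongr
            have h3 := hC.col z
            rwa [Kernel.const_apply] at h3
    exact ne_top_of_le_ne_top (ENNReal.mul_ne_top hM hC.ne_top) h2
  · exact (((h.meas.comp measurable_prodMk_left).comp (measurable_const_smul g)).enorm.mul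
      (hC.meas_right z).enorm).aemeasurable

theorem integrable_comp (h : NKer G μ c) (h' : NKer G μ c') (x z : Z) :
    Integrable (fun y => c x y * c' y z) μ := by
  refine ⟨((h.meas.comp measurable_prodMk_left).mul
    (h'.meas.comp measurable_prodMk_right)).aestronglyMeasurable, ?_⟩
  have h1 := h.comp_ne_top h' x z
  have h2 := ENNReal.le_tsum (f := fun g : G => ∫⁻ y, ‖c x y * c' y (g • z)‖ₑ ∂μ) 1
  rw [HasFiniteIntegral]
  refine lt_of_le_of_lt ?_ (lt_top_iff_ne_top.mpr h1)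
  refine le_trans (le_of_eq ?_) h2
  simp only [one_smul]

end rows

/-! ### The operator -/

section op

variable [Countable G] [MeasurableConstSMul G Z] [SMulInvariantMeasure G Z μ] [SFinite μ]

/-- The operator of a nice kernel. -/
def op (h : NKer G μ c) (hw : IsWeight G w) :
    autL2 G (μ.withDensity w) →L[ℂ] autL2 G (μ.withDensity w) := h.hyp.choose_spec.opL hw

theorem op_eq (h : NKer G μ c) (hw : IsWeight G w) {C : ℝ≥0∞}
    (h' : KerHyp G μ (Kernel.const Z μ) c' C) (hcc : c = c') : h.op hw = h'.opL hw :=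
  KerHyp.opL_congr _ _ hw hcc

theorem op_congr (h : NKer G μ c) (h' : NKer G μ c') (hw : IsWeight G w) (hcc : c = c') :
    h.op hw = h'.op hw := KerHyp.opL_congr _ _ hw hcc

theorem op_add (h : NKer G μ c) (h' : NKer G μ c') (hw : IsWeight G w) :
    (h.add h').op hw = h.op hw + h'.op hw := KerHyp.opL_add _ _ _ hw

theorem op_const_mul (h : NKer G μ c) (a : ℂ) (hw : IsWeight G w) :
    (h.const_mul a).op hw = a • h.op hw := KerHyp.opL_const_mul _ a _ hw

theorem op_zero (hw : IsWeight G w) : (zero : NKer G μ _).op hw = 0 := by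
  refine ContinuousLinearMap.ext fun f => autL2_ext ?_
  refine ((zero : NKer G μ _).hyp.choose_spec.opL_apply_ae hw f).trans ?_
  have h2 : arep ((0 : autL2 G (μ.withDensity w) →L[ℂ] autL2 G (μ.withDensity w)) f) =ᵐ[
      μ.withDensity w] fun _ => (0 : ℂ) := by
    refine (coeFn_ae_arep (0 : autL2 G (μ.withDensity w))).symm.trans ?_
    exact Lp.coeFn_zero ℂ 2 _
  refine Filter.EventuallyEq.trans ?_ h2.symm
  exact Filter.Eventually.of_forall fun z => by unfold kop; simp

theorem adjoint_op (h : NKer G μ c) (hw : IsWeight G w) :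
    ContinuousLinearMap.adjoint (h.op hw) = h.adj.op hw := by
  unfold op
  rw [h.hyp.choose_spec.adjoint_opL hw]
  exact KerHyp.opL_congr _ _ hw rfl

/-- The composition of two operators. -/
theorem op_comp (h : NKer G μ c) (h' : NKer G μ c') {c'' : Z → Z → ℂ} (h'' : NKer G μ c'')
    (hw : IsWeight G w) (hc : ∀ x z, kcomp μ c c' x z = c'' x z) :
    h.op hw * h'.op hw = h''.op hw := by
  refine h.hyp.choose_spec.opL_comp_const h'.hyp.choose_spec h''.hyp.choose_spec hw fun z z'' => ?_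
  simp_rw [Kernel.const_apply]
  exact (hc z z'').symm

end op

end NKer

end Fermat.Agent.LT

end
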