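import Fermat.Agent.LT.Sttf.TwAut
import Fermat.Agent.LT.Spec.Trace

/-!
# Rows of kernel operators on `L²(G \ Z)` and traces on a closed subspace
-/

set_option autoImplicit false

noncomputable section

open MeasureTheory MulAction ProbabilityTheory
open scoped ENNReal ComplexConjugate InnerProductSpace

namespace Fermat.Agent.LT

section rows

variable {G Z : Type*} [Group G] [MeasurableSpace Z] [MulAction G Z]

/-- An invariant kernel on `G \ Z`. -/
structure InvK (G : Type*) {Z : Type*} [Group G] [MeasurableSpace Z] [MulAction G Z]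
    (K : Z → Z → ℂ) : Prop where
  meas : Measurable (Function.uncurry K)
  left : ∀ (g : G) x y, K (g • x) y = K x y
  right : ∀ (g : G) x y, K x (g • y) = K x y

theorem InvK.meas_row {K : Z → Z → ℂ} (h : InvK G K) (x : Z) : Measurable (K x) :=
  h.meas.comp measurable_prodMk_left

theorem InvK.meas_row_conj {K : Z → Z → ℂ} (h : InvK G K) (x : Z) :
    Measurable fun y => conj (K x y) :=
  Complex.continuous_conj.measurable.comp (h.meas_row x)

theorem InvK.adj {K : Z → Z → ℂ} (h : InvK G K) : InvK G fun x y => conj (K y x) where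
  meas := Complex.continuous_conj.measurable.comp (h.meas.comp measurable_swap)
  left g x y := by rw [h.right]
  right g x y := by rw [h.left]

theorem InvK.comp_right {K : Z → Z → ℂ} (h : InvK G K) {μ : Measure Z} {σ : G ≃* G}
    {τ τ' : Z → Z} (hτ : TwAut G μ σ τ τ') : InvK G fun x y => K x (τ y) where
  meas := h.meas.comp (measurable_fst.prodMk (hτ.mp.measurable.comp measurable_snd))
  left g x y := h.left g x _
  right g x y := by rw [hτ.smul, h.right]

theorem invK_aut [Countable G] [MeasurableConstSMul G Z] {c : Z → Z → ℂ}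
    (hm : Measurable (Function.uncurry c))
    (hc : ∀ (g : G) x y, c (g • x) (g • y) = c x y) : InvK G (aut G c) where
  meas := measurable_aut hm
  left := aut_smul_left hc
  right := aut_smul_right c

variable {ν : Measure Z}

open Classical in
/-- The class of the conjugate of a row. -/
def rowK {K : Z → Z → ℂ} (h : InvK G K) (ν : Measure Z) (x : Z) : autL2 G ν :=
  if hx : MemLp (fun y => conj (K x y)) 2 ν then
    autMk (fun y => conj (K x y)) (h.meas_row_conj x) (fun g y => by rw [h.right]) hx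
  else 0

theorem memLp_conj {f : Z → ℂ} (hf : MemLp f 2 ν) : MemLp (fun y => conj (f y)) 2 ν := by
  have h := hf.star
  exact h

theorem coeFn_rowK {K : Z → Z → ℂ} (h : InvK G K) {x : Z} (hx : MemLp (K x) 2 ν) :
    arep (rowK h ν x) =ᵐ[ν] fun y => conj (K x y) := by
  rw [rowK, dif_pos (memLp_conj hx)]
  exact arep_autMk _ _ _ _

theorem inner_rowK {K : Z → Z → ℂ} (h : InvK G K) {x : Z} (hx : MemLp (K x) 2 ν)
    (f : autL2 G ν) : ⟪rowK h ν x, f⟫_ℂ = ∫ y, K x y * arep f y ∂ν := by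
  rw [inner_autL2]
  refine integral_congr_ae ?_
  filter_upwards [coeFn_rowK h hx] with y hy
  rw [hy, Complex.conj_conj]

theorem inner_rowK_rowK {K K' : Z → Z → ℂ} (h : InvK G K) (h' : InvK G K') {x : Z}
    (hx : MemLp (K x) 2 ν) (hx' : MemLp (K' x) 2 ν) :
    ⟪rowK h ν x, rowK h' ν x⟫_ℂ = ∫ y, K x y * conj (K' x y) ∂ν := by
  rw [inner_rowK h hx]
  refine integral_congr_ae ?_
  filter_upwards [coeFn_rowK h' hx'] with y hy
  rw [hy]

theorem enorm_rowK_sq {K : Z → Z → ℂ} (h : InvK G K) {x : Z} (hx : MemLp (K x) 2 ν) :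
    ‖rowK h ν x‖ₑ ^ 2 = ∫⁻ y, ‖K x y‖ₑ ^ 2 ∂ν := by
  rw [enorm_sq_autL2]
  refine lintegral_congr_ae ?_
  filter_upwards [coeFn_rowK h hx] with y hy
  rw [hy, ← ofReal_norm, RCLike.norm_conj, ofReal_norm]

/-! ### An operator with the kernel `K` -/

/-- `T` is the operator with the kernel `K` on the closed subspace `V`. -/
def HasK {V : Submodule ℂ (autL2 G ν)} (T : V →L[ℂ] autL2 G ν) (K : Z → Z → ℂ) : Prop :=
  ∀ v : V, arep (T v) =ᵐ[ν] fun x => ∫ y, K x y * arep (v : autL2 G ν) y ∂ν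

variable {V : Submodule ℂ (autL2 G ν)} {T : V →L[ℂ] autL2 G ν} {K : Z → Z → ℂ}

/-- The same operator with values in `Lp`. -/
def toLpL (T : V →L[ℂ] autL2 G ν) : V →L[ℂ] Lp ℂ 2 ν := (autL2 G ν).subtypeL ∘L T

theorem toLpL_apply (T : V →L[ℂ] autL2 G ν) (v : V) : toLpL T v = (T v : Lp ℂ 2 ν) := rfl

theorem isHS_toLpL (h : IsHS (H := V) (G := autL2 G ν) T) :
    IsHS (H := V) (G := Lp ℂ 2 ν) (toLpL T) := h.comp_left _

theorem ae_inner_rowK [V.HasOrthogonalProjection] (h : InvK G K) (hT : HasK T K)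
    (hrow : ∀ᵐ x ∂ν, MemLp (K x) 2 ν) (v : V) :
    (toLpL T v : Z → ℂ) =ᵐ[ν] fun x => ⟪V.orthogonalProjectionOnto (rowK h ν x), v⟫_ℂ := by
  filter_upwards [coeFn_ae_arep (T v), hT v, hrow] with x h1 h2 h3
  rw [toLpL_apply, h1, h2, ← inner_rowK h h3]
  exact (Submodule.inner_orthogonalProjectionOnto_eq_of_mem_right v (rowK h ν x)).symm

/-- If an extension of `T` kills the orthogonal complement of `V` then almost all rows are in `V`. -/
theorem ae_rowK_mem [CompleteSpace V] [SecondCountableTopology (Lp ℂ 2 ν)] (h : InvK G K)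
    {T' : autL2 G ν →L[ℂ] autL2 G ν}
    (hT' : ∀ v, arep (T' v) =ᵐ[ν] fun x => ∫ y, K x y * arep v y ∂ν)
    (hkill : ∀ v ∈ Vᗮ, T' v = 0)
    (hrow : ∀ᵐ x ∂ν, MemLp (K x) 2 ν) : ∀ᵐ x ∂ν, rowK h ν x ∈ V := by
  have : SecondCountableTopology (autL2 G ν) := inferInstance
  have : SecondCountableTopology Vᗮ := inferInstance
  let d : ℕ → Vᗮ := TopologicalSpace.denseSeq Vᗮ
  have h1 : ∀ᵐ x ∂ν, ∀ n, ⟪rowK h ν x, (d n : autL2 G ν)⟫_ℂ = 0 := by
    rw [ae_all_iff]
    intro n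
    have h2 : arep (T' (d n)) =ᵐ[ν] fun _ => (0 : ℂ) := by
      rw [hkill _ (d n).2]
      refine (coeFn_ae_arep (0 : autL2 G ν)).symm.trans ?_
      exact Lp.coeFn_zero ℂ 2 ν
    filter_upwards [hT' (d n), h2, hrow] with x hx1 hx2 hx3
    rw [inner_rowK h hx3, ← hx1, hx2]
  filter_upwards [h1] with x hx
  have h3 : ∀ v : Vᗮ, ⟪rowK h ν x, (v : autL2 G ν)⟫_ℂ = 0 := by
    have hclosed : IsClosed {v : Vᗮ | ⟪rowK h ν x, (v : autL2 G ν)⟫_ℂ = 0} :=
      isClosed_eq ((innerSL ℂ (rowK h ν x)).continuous.comp continuous_subtype_val)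
        continuous_const
    have hdense := TopologicalSpace.denseRange_denseSeq Vᗮ
    have hsub : Set.range d ⊆ {v : Vᗮ | ⟪rowK h ν x, (v : autL2 G ν)⟫_ℂ = 0} := by
      rintro _ ⟨n, rfl⟩
      exact hx n
    intro v
    exact hclosed.closure_subset_iff.mpr hsub (hdense v)
  have h4 : rowK h ν x ∈ Vᗮᗮ := by
    rw [Submodule.mem_orthogonal']
    intro v hv
    exact h3 ⟨v, hv⟩
  rwa [Submodule.orthogonal_orthogonal] at h4

/-- The Hilbert–Schmidt norm as an integral. -/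
theorem lintegral_enorm_sq_ne_top {H : Type*} [NormedAddCommGroup H] [InnerProductSpace ℂ H]
    [CompleteSpace H] [TopologicalSpace.SeparableSpace H] {T : H →L[ℂ] Lp ℂ 2 ν} (hT : IsHS T)
    {k : Z → H} (hk : ∀ v, T v =ᵐ[ν] fun x => ⟪k x, v⟫_ℂ) : ∫⁻ x, ‖k x‖ₑ ^ 2 ∂ν ≠ ∞ := by
  obtain ⟨w, b, -⟩ := exists_hilbertBasis ℂ H
  have hcount : Countable w := countable_of_orthonormal b.orthonormal
  obtain ⟨C, hC⟩ := hT
  have h1 : ∀ x, ‖k x‖ₑ ^ 2 = ∑' j, ‖⟪k x, b j⟫_ℂ‖ₑ ^ 2 := by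
    intro x
    have h2 := (hasSum_norm_inner_sq b (k x))
    have h3 : ∀ j, ‖⟪k x, b j⟫_ℂ‖ₑ ^ 2 = ENNReal.ofReal (‖⟪b j, k x⟫_ℂ‖ ^ 2) := fun j => by
      rw [ENNReal.ofReal_pow (norm_nonneg _), ← ofReal_norm, norm_inner_symm]
    simp_rw [h3]
    rw [← ENNReal.ofReal_tsum_of_nonneg (fun j => sq_nonneg _) h2.summable, h2.tsum_eq,
      ENNReal.ofReal_pow (norm_nonneg _), ofReal_norm]
  have h2 : ∫⁻ x, ‖k x‖ₑ ^ 2 ∂ν = ∑' j, ∫⁻ x, ‖T (b j) x‖ₑ ^ 2 ∂ν := by
    rw [← lintegral_tsum fun j => ((Lp.aestronglyMeasurable (T (b j))).enorm.pow_const 2)]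
    refine lintegral_congr_ae ?_
    have h3 : ∀ᵐ x ∂ν, ∀ j, T (b j) x = ⟪k x, b j⟫_ℂ := by
      rw [ae_all_iff]
      exact fun j => hk (b j)
    filter_upwards [h3] with x hx
    rw [h1 x]
    simp_rw [hx]
  rw [h2]
  have h4 : ∀ j, ∫⁻ x, ‖T (b j) x‖ₑ ^ 2 ∂ν = ENNReal.ofReal (‖T (b j)‖ ^ 2) := by
    intro j
    rw [ENNReal.ofReal_pow (norm_nonneg _), ofReal_norm, Lp.enorm_def,
      eLpNorm_eq_lintegral_rpow_enorm_toReal (by simp) (by simp)]
    simp only [ENNReal.toReal_ofNat, ENNReal.rpow_ofNat]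
    rw [← ENNReal.rpow_natCast, ← ENNReal.rpow_mul]
    norm_num
  simp_rw [h4]
  rw [← ENNReal.ofReal_tsum_of_nonneg (fun j => sq_nonneg _) (hC.summable b.orthonormal)]
  exact ENNReal.ofReal_ne_top

end rows

end Fermat.Agent.LT

end
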