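import Fermat.Agent.LT.Sttf.Rows

/-!
# The trace formula on a closed subspace of `L²(G \ Z)`
-/

set_option autoImplicit false

noncomputable section

open MeasureTheory MulAction ProbabilityTheory
open scoped ENNReal ComplexConjugate InnerProductSpace

namespace Fermat.Agent.LT

section abstract

variable {G Z : Type*} [Group G] [MeasurableSpace Z] [MulAction G Z] {ν : Measure Z}
  {V : Submodule ℂ (autL2 G ν)} {T₁ T₂ : V →L[ℂ] autL2 G ν} {K₁ K₂ : Z → Z → ℂ} {ι : Type*}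

/-- **The trace pairing of two operators with kernels on a closed subspace.** -/
theorem hasSum_inner_kernels [SecondCountableTopology (Lp ℂ 2 ν)] [CompleteSpace V]
    (h₁ : InvK G K₁) (h₂ : InvK G K₂) (hT₁ : HasK T₁ K₁) (hT₂ : HasK T₂ K₂)
    (hs₁ : IsHS (H := V) (G := autL2 G ν) T₁) (hs₂ : IsHS (H := V) (G := autL2 G ν) T₂)
    (hr₁ : ∀ᵐ x ∂ν, MemLp (K₁ x) 2 ν) (hr₂ : ∀ᵐ x ∂ν, MemLp (K₂ x) 2 ν)
    (hV : ∀ᵐ x ∂ν, rowK h₂ ν x ∈ V) (b : HilbertBasis ι ℂ V) :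
    HasSum (fun j => ⟪T₁ (b j), T₂ (b j)⟫_ℂ) (∫ x, ∫ y, K₂ x y * conj (K₁ x y) ∂ν ∂ν) := by
  have : SecondCountableTopology V := inferInstance
  have h3 := IsHS.hasSum_pair b (isHS_toLpL hs₁) (isHS_toLpL hs₂)
  rw [hsPair_eq_integral_rows (isHS_toLpL hs₁) (isHS_toLpL hs₂) (ae_inner_rowK h₁ hT₁ hr₁)
    (ae_inner_rowK h₂ hT₂ hr₂)] at h3
  have h4 : ∫ x, ⟪V.orthogonalProjectionOnto (rowK h₂ ν x),
      V.orthogonalProjectionOnto (rowK h₁ ν x)⟫_ℂ ∂ν =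
      ∫ x, ∫ y, K₂ x y * conj (K₁ x y) ∂ν ∂ν := by
    refine integral_congr_ae ?_
    filter_upwards [hV, hr₁, hr₂] with x hx hx1 hx2
    rw [← inner_rowK_rowK h₂ h₁ hx2 hx1]
    have h5 : V.orthogonalProjectionOnto (rowK h₂ ν x) = (⟨rowK h₂ ν x, hx⟩ : V) := by
      apply Subtype.ext
      exact Submodule.starProjection_eq_self_iff.mpr hx
    rw [h5]
    exact Submodule.inner_orthogonalProjectionOnto_eq_of_mem_left (⟨rowK h₂ ν x, hx⟩ : V)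
      (rowK h₁ ν x)
  rw [h4] at h3
  exact h3

/-- The kernels are square integrable on the product. -/
theorem lintegral_kernel_sq_ne_top [SecondCountableTopology (Lp ℂ 2 ν)] [CompleteSpace V]
    (h₁ : InvK G K₁) (hT₁ : HasK T₁ K₁) (hs₁ : IsHS (H := V) (G := autL2 G ν) T₁)
    (hr₁ : ∀ᵐ x ∂ν, MemLp (K₁ x) 2 ν) (hV : ∀ᵐ x ∂ν, rowK h₁ ν x ∈ V) :
    ∫⁻ x, ∫⁻ y, ‖K₁ x y‖ₑ ^ 2 ∂ν ∂ν ≠ ∞ := by
  have : SecondCountableTopology V := inferInstance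
  have h1 := lintegral_enorm_sq_ne_top (isHS_toLpL hs₁) (ae_inner_rowK h₁ hT₁ hr₁)
  convert h1 using 1
  refine lintegral_congr_ae ?_
  filter_upwards [hV, hr₁] with x hx hx1
  rw [← enorm_rowK_sq h₁ hx1]
  congr 1
  have h5 : V.orthogonalProjectionOnto (rowK h₁ ν x) = (⟨rowK h₁ ν x, hx⟩ : V) := by
    apply Subtype.ext
    exact Submodule.starProjection_eq_self_iff.mpr hx
  rw [h5]
  rfl

theorem integrable_mul_of_sq {X : Type*} [MeasurableSpace X] {m : Measure X} {f g : X → ℂ}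
    (hf : Measurable f) (hg : Measurable g) (h1 : ∫⁻ x, ‖f x‖ₑ ^ 2 ∂m ≠ ∞)
    (h2 : ∫⁻ x, ‖g x‖ₑ ^ 2 ∂m ≠ ∞) : Integrable (fun x => f x * g x) m := by
  refine ⟨(hf.mul hg).aestronglyMeasurable, ?_⟩
  rw [HasFiniteIntegral]
  have h3 : ∀ x, ‖f x * g x‖ₑ ≤ ‖f x‖ₑ ^ 2 + ‖g x‖ₑ ^ 2 := by
    intro x
    rw [enorm_mul]
    generalize ‖f x‖ₑ = a
    generalize ‖g x‖ₑ = b
    rcases le_total a b with hab | hab
    · calc a * b ≤ b * b := by gcongr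
        _ = b ^ 2 := (sq b).symm
        _ ≤ a ^ 2 + b ^ 2 := le_add_self
    · calc a * b ≤ a * a := by gcongr
        _ = a ^ 2 := (sq a).symm
        _ ≤ a ^ 2 + b ^ 2 := le_self_add
  refine lt_of_le_of_lt (lintegral_mono h3) ?_
  rw [lintegral_add_left (hf.enorm.pow_const 2)]
  exact ENNReal.add_lt_top.mpr ⟨lt_top_iff_ne_top.mpr h1, lt_top_iff_ne_top.mpr h2⟩

/-- The order of the integrations may be exchanged. -/
theorem integral_kernels_swap [SecondCountableTopology (Lp ℂ 2 ν)] [CompleteSpace V] [SFinite ν]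
    (h₁ : InvK G K₁) (h₂ : InvK G K₂) (hT₁ : HasK T₁ K₁) (hT₂ : HasK T₂ K₂)
    (hs₁ : IsHS (H := V) (G := autL2 G ν) T₁) (hs₂ : IsHS (H := V) (G := autL2 G ν) T₂)
    (hr₁ : ∀ᵐ x ∂ν, MemLp (K₁ x) 2 ν) (hr₂ : ∀ᵐ x ∂ν, MemLp (K₂ x) 2 ν)
    (hV₁ : ∀ᵐ x ∂ν, rowK h₁ ν x ∈ V) (hV₂ : ∀ᵐ x ∂ν, rowK h₂ ν x ∈ V) :
    ∫ x, ∫ y, K₂ x y * conj (K₁ x y) ∂ν ∂ν = ∫ y, ∫ x, conj (K₁ x y) * K₂ x y ∂ν ∂ν := by
  have hm₁ : Measurable fun p : Z × Z => conj (K₁ p.1 p.2) :=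
    Complex.continuous_conj.measurable.comp h₁.meas
  have hm₂ : Measurable fun p : Z × Z => K₂ p.1 p.2 := h₂.meas
  have e1 : ∫⁻ p : Z × Z, ‖conj (K₁ p.1 p.2)‖ₑ ^ 2 ∂ν.prod ν ≠ ∞ := by
    rw [lintegral_prod _ (hm₁.enorm.pow_const 2).aemeasurable]
    have h3 := lintegral_kernel_sq_ne_top h₁ hT₁ hs₁ hr₁ hV₁
    convert h3 using 5 with x y
    rw [← ofReal_norm, RCLike.norm_conj, ofReal_norm]
  have e2 : ∫⁻ p : Z × Z, ‖K₂ p.1 p.2‖ₑ ^ 2 ∂ν.prod ν ≠ ∞ := by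
    rw [lintegral_prod _ (hm₂.enorm.pow_const 2).aemeasurable]
    exact lintegral_kernel_sq_ne_top h₂ hT₂ hs₂ hr₂ hV₂
  have hint : Integrable (fun p : Z × Z => K₂ p.1 p.2 * conj (K₁ p.1 p.2)) (ν.prod ν) :=
    integrable_mul_of_sq hm₂ hm₁ e2 e1
  rw [integral_integral_swap hint]
  refine integral_congr_ae (Filter.Eventually.of_forall fun y => ?_)
  refine integral_congr_ae (Filter.Eventually.of_forall fun x => ?_)
  exact mul_comm _ _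

end abstract

section main

variable {G Z : Type*} [Group G] [Countable G] [MeasurableSpace Z] [MulAction G Z]
  [MeasurableConstSMul G Z] {μ : Measure Z} [SMulInvariantMeasure G Z μ] [SFinite μ]
  {w : Z → ℝ≥0∞} {σ : G ≃* G} {τ τ' : Z → Z} {c c₁ c₂ : Z → Z → ℂ} {C C₁ C₂ : ℝ≥0∞}

/-- The kernel of a function operator. -/
theorem KerHyp.arep_opL_ae (h : KerHyp G μ (Kernel.const Z μ) c C) (hw : IsWeight G w)
    {f : autL2 G (μ.withDensity w)} {F : Z → ℂ} (hF : Measurable F)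
    (hi : ∀ (g : G) z, F (g • z) = F z) (hfF : arep f =ᵐ[μ.withDensity w] F) :
    arep (h.opL hw f) =ᵐ[μ.withDensity w]
      fun x => ∫ y, aut G c x y * F y ∂μ.withDensity w := by
  have hF2 : MemLp F 2 (μ.withDensity w) := (memLp_congr_ae hfF).mp (memLp_arep f)
  have h1 := (withDensity_ac μ w).ae_eq (h.opL_ae hw f hF hi hfF)
  filter_upwards [h1, h.ae_integrable hw hF hi hF2] with x hx hx2
  rw [hx]
  rw [Kernel.const_apply] at hx2
  exact (hw.integral_aut_mul hi hx2).symm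

/-- The composition of a function operator with the translation by `τ`. -/
theorem KerHyp.arep_opL_tau (h : KerHyp G μ (Kernel.const Z μ) c C) (hw : IsWeight G w)
    (hτ : TwAut G μ σ τ τ') {S : autL2 G (μ.withDensity w) →L[ℂ] autL2 G (μ.withDensity w)}
    (hS : ∀ f, arep (S f) =ᵐ[μ.withDensity w] fun z => arep f (τ' z))
    (hcm : InvK G (aut G c)) (f : autL2 G (μ.withDensity w)) :
    arep (h.opL hw (S f)) =ᵐ[μ.withDensity w]
      fun x => ∫ y, aut G c x (τ y) * arep f y ∂μ.withDensity w := by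
  have hi : ∀ (g : G) z, arep f (τ' (g • z)) = arep f (τ' z) := fun g z => by
    rw [hτ.smul', arep_smul]
  have hm : Measurable fun z => arep f (τ' z) := (measurable_arep f).comp hτ.mp'.measurable
  filter_upwards [h.arep_opL_ae hw hm hi (hS f)] with x hx
  rw [hx]
  have h1 := hτ.integral_comp hw (F := fun y => aut G c x y * arep f (τ' y))
    ((hcm.meas_row x).mul hm) (fun g y => by rw [hcm.right, hi])
  rw [← h1]
  simp only [hτ.left]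

/-- **The simple twisted trace formula** on a closed subspace `V` of `L²(G \ Z)`:
`tr (R(c₁) R(c₂) S | V) = ∫_{G \ Z} ∑_δ (c₁ * c₂) (z, δ τ z)`, where `S f = f ∘ τ⁻¹`. -/
theorem sttf_aut [SecondCountableTopology (Lp ℂ 2 (μ.withDensity w))]
    (hw : IsWeight G w) (h₁ : KerHyp G μ (Kernel.const Z μ) c₁ C₁)
    (h₂ : KerHyp G μ (Kernel.const Z μ) c₂ C₂) (hτ : TwAut G μ σ τ τ')
    {S : autL2 G (μ.withDensity w) →L[ℂ] autL2 G (μ.withDensity w)}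
    (hS : ∀ f, arep (S f) =ᵐ[μ.withDensity w] fun z => arep f (τ' z))
    {V : Submodule ℂ (autL2 G (μ.withDensity w))} [CompleteSpace V]
    (hkill₁ : ∀ f ∈ Vᗮ, h₁.adj.opL hw f = 0) (hkill₂ : ∀ f ∈ Vᗮ, h₂.opL hw (S f) = 0)
    {T₁ T₂ : V →L[ℂ] autL2 G (μ.withDensity w)} (hT₁ : ∀ v, T₁ v = h₁.adj.opL hw v)
    (hT₂ : ∀ v, T₂ v = h₂.opL hw (S v))
    (hs₁ : IsHS (H := V) (G := autL2 G (μ.withDensity w)) T₁)
    (hs₂ : IsHS (H := V) (G := autL2 G (μ.withDensity w)) T₂)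
    (hr₁ : ∀ᵐ x ∂μ.withDensity w, MemLp (fun y => aut G c₁ y x) 2 (μ.withDensity w))
    (hr₂ : ∀ᵐ x ∂μ.withDensity w, MemLp (fun y => aut G c₂ x y) 2 (μ.withDensity w))
    (hcomp : ∀ x z, ∑' g : G, ∫⁻ y, ‖c₁ x y * c₂ y (g • z)‖ₑ ∂μ ≠ ∞)
    {ι : Type*} (b : HilbertBasis ι ℂ V) :
    HasSum (fun j => ⟪(b j : autL2 G (μ.withDensity w)),
        h₁.opL hw (h₂.opL hw (S (b j : autL2 G (μ.withDensity w))))⟫_ℂ)
      (∫ z, aut G (kcomp μ c₁ c₂) z (τ z) ∂μ.withDensity w) := by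
  have hi₁ : InvK G (aut G c₁) := invK_aut h₁.meas h₁.inv
  have hi₂ : InvK G (aut G c₂) := invK_aut h₂.meas h₂.inv
  have hK₁ : InvK G (fun x y => conj (aut G c₁ y x)) := hi₁.adj
  have hK₂ : InvK G (fun x y => aut G c₂ x (τ y)) := hi₂.comp_right hτ
  have hadj : ∀ x y, aut G (fun z z' => conj (c₁ z' z)) x y = conj (aut G c₁ y x) :=
    aut_adj h₁.inv
  have hr₁' : ∀ᵐ x ∂μ.withDensity w, MemLp (fun y => conj (aut G c₁ y x)) 2
      (μ.withDensity w) := by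
    filter_upwards [hr₁] with x hx using memLp_conj hx
  have hr₂' : ∀ᵐ x ∂μ.withDensity w, MemLp (fun y => aut G c₂ x (τ y)) 2
      (μ.withDensity w) := by
    filter_upwards [hr₂] with x hx
    exact hτ.memLp_comp hw (hi₂.meas_row x) (fun g z => hi₂.right g x z) hx
  have hA₁ : ∀ f, arep (h₁.adj.opL hw f) =ᵐ[μ.withDensity w] fun x =>
      ∫ y, conj (aut G c₁ y x) * arep f y ∂μ.withDensity w := by
    intro f
    have h3 := h₁.adj.arep_opL_ae hw (measurable_arep f) (arep_smul f)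
      (Filter.EventuallyEq.rfl : arep f =ᵐ[μ.withDensity w] arep f)
    simp only [hadj] at h3
    exact h3
  have hA₂ : ∀ f, arep (h₂.opL hw (S f)) =ᵐ[μ.withDensity w] fun x =>
      ∫ y, aut G c₂ x (τ y) * arep f y ∂μ.withDensity w := fun f =>
    h₂.arep_opL_tau hw hτ hS hi₂ f
  have hT₁' : HasK T₁ (fun x y => conj (aut G c₁ y x)) := fun v => by
    rw [hT₁]
    exact hA₁ v
  have hT₂' : HasK T₂ (fun x y => aut G c₂ x (τ y)) := fun v => by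
    rw [hT₂]
    exact hA₂ v
  have hV₁ := ae_rowK_mem hK₁ (V := V) (T' := h₁.adj.opL hw) hA₁ hkill₁ hr₁'
  have hV₂ := ae_rowK_mem hK₂ (V := V) (T' := h₂.opL hw ∘L S) hA₂ hkill₂ hr₂'
  have key := hasSum_inner_kernels hK₁ hK₂ hT₁' hT₂' hs₁ hs₂ hr₁' hr₂' hV₂ b
  rw [integral_kernels_swap hK₁ hK₂ hT₁' hT₂' hs₁ hs₂ hr₁' hr₂' hV₁ hV₂] at key
  have e1 : ∫ y, ∫ x, conj (conj (aut G c₁ y x)) * aut G c₂ x (τ y) ∂μ.withDensity w
      ∂μ.withDensity w = ∫ y, aut G (kcomp μ c₁ c₂) y (τ y) ∂μ.withDensity w := by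
    refine integral_congr_ae (Filter.Eventually.of_forall fun y => ?_)
    dsimp only
    simp only [Complex.conj_conj]
    exact (hw.aut_comp h₂.inv (h₁.meas_left y).aestronglyMeasurable
      (fun z' => (h₂.meas_right z').aestronglyMeasurable) (hcomp y (τ y))).symm
  rw [e1] at key
  convert key using 1
  funext j
  rw [hT₁, hT₂, ← h₁.adjoint_opL hw, ContinuousLinearMap.adjoint_inner_left]

/-- **The simple twisted trace formula** on a closed subspace `V` of `L²(G \ Z)`: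
`tr (R(c₁) R(c₂) S | V) = ∑_[δ] ∫_{G_δ \ Z} (c₁ * c₂) (z, δ τ z)`, where `S f = f ∘ τ⁻¹`. -/
theorem sttf [SecondCountableTopology (Lp ℂ 2 (μ.withDensity w))]
    (hw : IsWeight G w) (h₁ : KerHyp G μ (Kernel.const Z μ) c₁ C₁)
    (h₂ : KerHyp G μ (Kernel.const Z μ) c₂ C₂) (hτ : TwAut G μ σ τ τ')
    {S : autL2 G (μ.withDensity w) →L[ℂ] autL2 G (μ.withDensity w)}
    (hS : ∀ f, arep (S f) =ᵐ[μ.withDensity w] fun z => arep f (τ' z))
    {V : Submodule ℂ (autL2 G (μ.withDensity w))} [CompleteSpace V]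
    (hkill₁ : ∀ f ∈ Vᗮ, h₁.adj.opL hw f = 0) (hkill₂ : ∀ f ∈ Vᗮ, h₂.opL hw (S f) = 0)
    {T₁ T₂ : V →L[ℂ] autL2 G (μ.withDensity w)} (hT₁ : ∀ v, T₁ v = h₁.adj.opL hw v)
    (hT₂ : ∀ v, T₂ v = h₂.opL hw (S v))
    (hs₁ : IsHS (H := V) (G := autL2 G (μ.withDensity w)) T₁)
    (hs₂ : IsHS (H := V) (G := autL2 G (μ.withDensity w)) T₂)
    (hr₁ : ∀ᵐ x ∂μ.withDensity w, MemLp (fun y => aut G c₁ y x) 2 (μ.withDensity w))
    (hr₂ : ∀ᵐ x ∂μ.withDensity w, MemLp (fun y => aut G c₂ x y) 2 (μ.withDensity w))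
    (hcomp : ∀ x z, ∑' g : G, ∫⁻ y, ‖c₁ x y * c₂ y (g • z)‖ₑ ∂μ ≠ ∞)
    (hfin : ∫⁻ z, ∑' δ : G, ‖kcomp μ c₁ c₂ z (δ • τ z)‖ₑ ∂μ.withDensity w ≠ ∞)
    {wo : Quotient (orbitRel G (Tw σ)) → Z → ℝ≥0∞}
    (hwo : ∀ o, IsWeight (stabilizer G o.out) (wo o))
    {ι : Type*} (b : HilbertBasis ι ℂ V) :
    HasSum (fun j => ⟪(b j : autL2 G (μ.withDensity w)),
        h₁.opL hw (h₂.opL hw (S (b j : autL2 G (μ.withDensity w))))⟫_ℂ)
      (∑' o : Quotient (orbitRel G (Tw σ)),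
        ∫ z, twTerm (kcomp μ c₁ c₂) τ o.out z ∂μ.withDensity (wo o)) := by
  have key := sttf_aut hw h₁ h₂ hτ hS hkill₁ hkill₂ hT₁ hT₂ hs₁ hs₂ hr₁ hr₂ hcomp b
  rwa [hw.integral_aut_twist (measurable_kcomp h₁.meas h₂.meas)
    (kcomp_smul h₁.inv h₂.inv) hτ.mp.measurable hτ.smul hwo hfin] at key

end main

end Fermat.Agent.LT

end
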