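import Fermat.Agent.LT.Sttf.Main
import Fermat.Agent.LT.Auto.Oper

/-!
# Twisted automorphisms of a `G`-space

`τ : Z → Z` invertible, measure preserving, `τ (g • z) = σ g • τ z`. It preserves the integrals of
invariant functions over the quotient.
-/

set_option autoImplicit false

noncomputable section

open MeasureTheory MulAction ProbabilityTheory
open scoped ENNReal ComplexConjugate InnerProductSpace

namespace Fermat.Agent.LT

variable {G Z : Type*} [Group G] [MeasurableSpace Z] [MulAction G Z]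

/-- `τ` is an automorphism of `(Z, μ)`, semilinear with respect to `σ`, with inverse `τ'`. -/
structure TwAut (G : Type*) {Z : Type*} [Group G] [MeasurableSpace Z] [MulAction G Z]
    (μ : Measure Z) (σ : G ≃* G) (τ τ' : Z → Z) : Prop where
  mp : MeasurePreserving τ μ μ
  mp' : MeasurePreserving τ' μ μ
  left : ∀ z, τ' (τ z) = z
  right : ∀ z, τ (τ' z) = z
  smul : ∀ (g : G) z, τ (g • z) = σ g • τ z

namespace TwAut

variable {μ : Measure Z} {σ : G ≃* G} {τ τ' : Z → Z} {w : Z → ℝ≥0∞}

theorem refl (μ : Measure Z) : TwAut G μ (MulEquiv.refl G) id id :=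
  ⟨MeasurePreserving.id μ, MeasurePreserving.id μ, fun _ => rfl, fun _ => rfl, fun _ _ => rfl⟩

theorem smul' (h : TwAut G μ σ τ τ') (g : G) (z : Z) : τ' (g • z) = σ.symm g • τ' z := by
  have h1 : g • z = τ (σ.symm g • τ' z) := by
    rw [h.smul, σ.apply_symm_apply, h.right]
  rw [h1, h.left]

theorem symm (h : TwAut G μ σ τ τ') : TwAut G μ σ.symm τ' τ :=
  ⟨h.mp', h.mp, h.right, h.left, h.smul'⟩

theorem isWeight (h : TwAut G μ σ τ τ') (hw : IsWeight G w) : IsWeight G fun z => w (τ z) where
  meas := hw.meas.comp h.mp.measurable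
  sum_eq z := by
    simp_rw [h.smul]
    rw [← hw.sum_eq (τ z), ← σ.toEquiv.tsum_eq fun g => w (g • τ z)]
    rfl

theorem map_withDensity (h : TwAut G μ σ τ τ') (hw : Measurable w) :
    (μ.withDensity w).map τ = μ.withDensity fun z => w (τ' z) := by
  have h1 := withDensity_map μ h.mp.measurable (W := fun z => w (τ' z))
    (hw.comp h.mp'.measurable)
  simp only [h.left] at h1
  rw [← h1, h.mp.map_eq]

variable [Countable G] [MeasurableConstSMul G Z] [SMulInvariantMeasure G Z μ]

theorem lintegral_comp (h : TwAut G μ σ τ τ') (hw : IsWeight G w) {F : Z → ℝ≥0∞}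
    (hF : Measurable F) (hi : ∀ (g : G) z, F (g • z) = F z) :
    ∫⁻ z, F (τ z) ∂μ.withDensity w = ∫⁻ z, F z ∂μ.withDensity w := by
  rw [← lintegral_map hF h.mp.measurable, h.map_withDensity hw.meas]
  exact (h.symm.isWeight hw).lintegral_eq hw hF hi

theorem integral_comp (h : TwAut G μ σ τ τ') (hw : IsWeight G w) {F : Z → ℂ}
    (hF : Measurable F) (hi : ∀ (g : G) z, F (g • z) = F z) :
    ∫ z, F (τ z) ∂μ.withDensity w = ∫ z, F z ∂μ.withDensity w := by
  rw [← integral_map h.mp.measurable.aemeasurable hF.aestronglyMeasurable,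
    h.map_withDensity hw.meas]
  exact (h.symm.isWeight hw).integral_eq hw hF hi

omit [Countable G] [MeasurableConstSMul G Z] [SMulInvariantMeasure G Z μ] in
theorem inv_comp (h : TwAut G μ σ τ τ') {E : Type*} {F : Z → E}
    (hi : ∀ (g : G) z, F (g • z) = F z) (g : G) (z : Z) : F (τ (g • z)) = F (τ z) := by
  rw [h.smul, hi]

theorem memLp_comp (h : TwAut G μ σ τ τ') (hw : IsWeight G w) {F : Z → ℂ}
    (hF : Measurable F) (hi : ∀ (g : G) z, F (g • z) = F z)
    (hm : MemLp F 2 (μ.withDensity w)) : MemLp (fun z => F (τ z)) 2 (μ.withDensity w) := by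
  refine memLp_of_lintegral_sq (hF.comp h.mp.measurable) ?_
  rw [h.lintegral_comp hw (F := fun z => ‖F z‖ₑ ^ 2) (hF.enorm.pow_const 2)
    (fun g z => by rw [hi])]
  exact lintegral_sq_ne_top hm

omit [Countable G] [MeasurableConstSMul G Z] [SMulInvariantMeasure G Z μ] in
/-- A null set argument: properties of invariant functions may be transported by `τ`. -/
theorem ae_comp (h : TwAut G μ σ τ τ') {p : Z → Prop} (hp : ∀ᵐ z ∂μ, p z) :
    ∀ᵐ z ∂μ, p (τ z) := h.mp.quasiMeasurePreserving.ae hp

end TwAut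

/-! ### Adjoint kernels -/

section adj

variable {c : Z → Z → ℂ}

omit [MeasurableSpace Z] in
theorem aut_adj (hc : ∀ (g : G) x y, c (g • x) (g • y) = c x y) (x y : Z) :
    aut G (fun z z' => conj (c z' z)) x y = conj (aut G c y x) := by
  unfold aut
  rw [← (Equiv.inv G).tsum_eq, Complex.conj_tsum]
  refine tsum_congr fun g => ?_
  rw [Equiv.inv_apply]
  have h1 := hc g (g⁻¹ • y) x
  rw [smul_inv_smul] at h1
  rw [h1]

end adj

end Fermat.Agent.LT

end
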