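import Fermat.Agent.LT.Sttf.SymTr
import Fermat.Agent.LT.Sttf.Conv
import Fermat.Agent.LT.Red.RowBound
import Fermat.Agent.LT.Tr.SymKer
import Fermat.Agent.LT.Tr.HFin
import Fermat.Agent.LT.Desc.TauZ

/-!
# The trace formula on `X_∞ × D`
-/

set_option autoImplicit false
set_option linter.unusedSectionVars false

noncomputable section

open MeasureTheory ENNReal MulAction ProbabilityTheory NumberField Matrix
open scoped InnerProductSpace ComplexConjugate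

namespace Fermat.Agent.LT.Sttf

open H3 Red Fermat.Agent.LT.Desc Fermat.Agent.LT.Tr

variable {F : Type*} [Field F] [NumberField F] [IsTotallyComplex F] {D : Type*}
  [MulAction (GL (Fin 2) F) D] [IsLevel F D]

/-- A uniform bound of the number of translates in a ball. -/
theorem exists_count_ball (U : ℝ) (D1 : Finset D) (x : Xi F) : ∃ N : ℕ, ∀ y : Xi F × D,
    ∃ T : Finset (PG F), T.card ≤ N ∧ ∀ g : PG F,
      ((∀ w, cu (x w) ((g • y).1 w) ≤ U) ∧ (g • y).2 ∈ D1) → g ∈ T := by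
  classical
  obtain ⟨c, T, hc, hx⟩ := exists_box (F := F) (D := Unit) (x, ())
  obtain ⟨C, hC0, hC⟩ := exists_count (F := F) U (max 1 c) (le_max_left _ _) D1
  have h1 : ∀ w, ‖(x w).z‖ ≤ max 1 c := fun w => ((hx.1 w).1).trans (le_max_right _ _)
  have h2 : ∀ w, (max 1 c)⁻¹ ≤ (x w).y := fun w =>
    (inv_anti₀ hc (le_max_right _ _)).trans (hx.1 w).2.1
  refine ⟨⌊C * ∏ w, (x w).y ^ 2⌋₊, fun y => ?_⟩
  obtain ⟨h3, h4⟩ := hC x h1 h2 y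
  refine ⟨h3.toFinset, ?_, fun g hg => ?_⟩
  · rw [← Set.ncard_eq_toFinset_card _ h3]
    exact Nat.le_floor h4
  · rw [Set.Finite.mem_toFinset]
    exact hg

variable [MeasurableSpace D]

/-- Kernels of bounded support are nice. -/
theorem nker_of_supp {μ : Measure (Xi F × D)} {c : Xi F × D → Xi F × D → ℂ} {C : ℝ≥0∞}
    (h : KerHyp (PG F) μ (Kernel.const (Xi F × D) μ) c C) {M : ℝ≥0∞} (hM : M ≠ ∞)
    (hb : ∀ z z', ‖c z z'‖ₑ ≤ M) {U : ℝ} {Nb Nb' : D → Finset D} (h1 : SuppIn U Nb c)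
    (h2 : SuppIn U Nb' fun z z' => c z' z) : NKer (PG F) μ c := by
  refine NKer.of_count h hM hb (fun x => ?_) fun x => ?_
  · obtain ⟨N, hN⟩ := exists_count_ball U (Nb x.2) x.1
    refine ⟨N, fun y => ?_⟩
    obtain ⟨T, hT, hT'⟩ := hN y
    exact ⟨T, hT, fun g hg => hT' g (h1 _ _ hg)⟩
  · obtain ⟨N, hN⟩ := exists_count_ball U (Nb' x.2) x.1
    refine ⟨N, fun y => ?_⟩
    obtain ⟨T, hT, hT'⟩ := hN y
    exact ⟨T, hT, fun g hg => hT' g (h2 _ _ hg)⟩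

variable [MeasurableSingletonClass D] [Countable D]

instance smulInvariantMeasure_muXD' :
    SMulInvariantMeasure (PG F) (Xi F × D) (muXD (volume : Measure (Xi F)) D) :=
  inferInstanceAs (SMulInvariantMeasure (PG F) (Xi F × D) (muZ F D))

omit [MeasurableSpace D] [MeasurableSingletonClass D] [Countable D] [IsTotallyComplex F] in
variable (F D) in
/-- The hypothesis on the orbits. -/
theorem exists_orbits' : ∃ T : Finset D, ∀ d, ∃ g : PG F, g • d ∈ T := by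
  obtain ⟨T, hT⟩ := IsLevel.finite_orbits (F := F) (D := D)
  refine ⟨T, fun d => ?_⟩
  obtain ⟨g, hg⟩ := hT d
  exact ⟨QuotientGroup.mk g, by rwa [pg_smul]⟩

/-- **The kernels of symbols are nice.** -/
theorem nker_sker {𝒦 : Type*} [Mul 𝒦] (κ : KerSg (PG F) (volume : Measure (Xi F)) 𝒦)
    (hb : ∀ k, ∃ M : ℝ, ∀ x x' : Xi F, ‖κ.kap k x x'‖ ≤ M)
    (hs : ∀ k, ∃ R : ℝ, ∀ x x' : Xi F, κ.kap k x x' ≠ 0 → ∀ w, cu (x w) (x' w) ≤ R)
    (k : 𝒦) (a : HK (PG F) D) :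
    NKer (PG F) (muXD (volume : Measure (Xi F)) D) (sker κ k a) := by
  obtain ⟨C, hC⟩ := kerHyp_sker κ (exists_orbits' F D) k a
  obtain ⟨M, hM⟩ := hb k
  obtain ⟨U, hU⟩ := hs k
  obtain ⟨C', hC'⟩ := HK.exists_discHyp (exists_orbits' F D) a
  refine nker_of_supp hC (M := ENNReal.ofReal M * C')
    (ENNReal.mul_ne_top ENNReal.ofReal_ne_top hC'.ne_top) (fun z z' => ?_) (U := U)
    (Nb := fun d => (a.finite_row d).toFinset) (Nb' := fun d => (a.finite_col d).toFinset)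
    (fun z z' h => ⟨?_, ?_⟩) (fun z z' h => ⟨?_, ?_⟩)
  · unfold sker
    rw [enorm_mul]
    have h1 : ‖κ.kap k z.1 z'.1‖ₑ ≤ ENNReal.ofReal M := by
      rw [← ofReal_norm]
      exact ENNReal.ofReal_le_ofReal (hM _ _)
    have h2 : ‖a.ker z.2 z'.2‖ₑ ≤ C' :=
      (ENNReal.le_tsum (f := fun d' => ‖a.ker z.2 d'‖ₑ) z'.2).trans (hC'.row z.2)
    gcongr
  · exact hU _ _ (left_ne_zero_of_mul h)
  · rw [Set.Finite.mem_toFinset]
    exact right_ne_zero_of_mul h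
  · intro w
    rw [cu_comm]
    exact hU _ _ (left_ne_zero_of_mul h) w
  · rw [Set.Finite.mem_toFinset]
    exact right_ne_zero_of_mul h

omit [MulAction (GL (Fin 2) F) D] [IsLevel F D] [IsTotallyComplex F] in
theorem secondCountable_Lp (ν : Measure (Xi F × D)) [SFinite ν] :
    SecondCountableTopology (Lp ℂ 2 ν) := by
  have : Fact ((2 : ℝ≥0∞) ≠ ∞) := ⟨ENNReal.ofNat_ne_top⟩
  infer_instance

/-! ### The trace formula on `X_∞ × D` -/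

variable {𝒦 : Type*} [Semigroup 𝒦] [StarMul 𝒦] {κ : KerSg (PG F) (volume : Measure (Xi F)) 𝒦}
  {w : Xi F × D → ℝ≥0∞} {hT : ∃ T : Finset D, ∀ d, ∃ g : PG F, g • d ∈ T}
  {hw : IsWeight (PG F) w}
  {𝒱 : Submodule ℂ (Lp ℂ 2 ((muXD (volume : Measure (Xi F)) D).withDensity w))}
  {ι₁ ι₂ : Type*} {t₁ : Finset ι₁} {c₁ : ι₁ → ℂ} {s₁ : ι₁ → Symb (PG F) D 𝒦} {t₂ : Finset ι₂}
  {c₂ : ι₂ → ℂ} {s₂ : ι₂ → Symb (PG F) D 𝒦}

/-- **The trace formula on `X_∞ × D`**, twisted by `τ`. -/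
theorem hasSum_tr_tau [CompleteSpace 𝒱]
    (hb : ∀ k, ∃ M : ℝ, ∀ x x' : Xi F, ‖κ.kap k x x'‖ ≤ M)
    (hs : ∀ k, ∃ R : ℝ, ∀ x x' : Xi F, κ.kap k x x' ≠ 0 → ∀ w, cu (x w) (x' w) ≤ R)
    (hstar : ∀ (k : 𝒦) x x', κ.kap (star k) x x' = conj (κ.kap k x' x))
    (h : StabRep (symOp κ hT hw) 𝒱) {τ : F ≃+* F} {tD : D ≃ D}
    (htD : ∀ (g : PG F) d, tD (g • d) = PG.tau τ g • tD d)
    (hst : StabOp h.le ((tauHyp_tauZE htD).tauL hw)) {τV : 𝒱 →L[ℂ] 𝒱}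
    (hτV : ∀ v : 𝒱, ((τV v : 𝒱) : Lp ℂ 2 ((muXD (volume : Measure (Xi F)) D).withDensity w)) =
      (tauHyp_tauZE htD).symm.tauL hw ⟨v, h.le v.2⟩)
    (hf₁ : ∀ i ∈ t₁, s₁ i ∈ fullS (PG F) D 𝒦) (hf₂ : ∀ i ∈ t₂, s₂ i ∈ fullS (PG F) D 𝒦)
    (hk₁ : ∀ f : autL2 (PG F) ((muXD (volume : Measure (Xi F)) D).withDensity w),
      (f : Lp ℂ 2 ((muXD (volume : Measure (Xi F)) D).withDensity w)) ∈ 𝒱ᗮ →
        ContinuousLinearMap.adjoint (linS κ hT hw t₁ c₁ s₁) f = 0)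
    (hk₂ : ∀ f : autL2 (PG F) ((muXD (volume : Measure (Xi F)) D).withDensity w),
      (f : Lp ℂ 2 ((muXD (volume : Measure (Xi F)) D).withDensity w)) ∈ 𝒱ᗮ →
        linS κ hT hw t₂ c₂ s₂ f = 0)
    (hs₁ : IsHS (homS h t₁ c₁ s₁)) (hs₂ : IsHS (homS h t₂ c₂ s₂))
    {ι : Type*} (b : HilbertBasis ι ℂ 𝒱) :
    HasSum (fun i => ⟪b i, (homS h t₁ c₁ s₁ * (homS h t₂ c₂ s₂ * τV)) (b i)⟫_ℂ)
      (∫ z, aut (PG F) (kerS κ t₁ c₁ s₁ t₂ c₂ s₂) z (tauZ τ tD z)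
        ∂(muZ F D).withDensity w) := by
  have hfin : IsFiniteMeasure ((muXD (volume : Measure (Xi F)) D).withDensity w) :=
    isFiniteMeasure_weight F D hw
  have := secondCountable_Lp ((muXD (volume : Measure (Xi F)) D).withDensity w)
  exact h.hasSum_tr hstar (fun k a => nker_sker κ hb hs k a) (tauHyp_tauZE htD) hst hτV hf₁ hf₂
    hk₁ hk₂ hs₁ hs₂ b

/-- **The trace formula on `X_∞ × D`**, untwisted. -/
theorem hasSum_tr_id [CompleteSpace 𝒱]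
    (hb : ∀ k, ∃ M : ℝ, ∀ x x' : Xi F, ‖κ.kap k x x'‖ ≤ M)
    (hs : ∀ k, ∃ R : ℝ, ∀ x x' : Xi F, κ.kap k x x' ≠ 0 → ∀ w, cu (x w) (x' w) ≤ R)
    (hstar : ∀ (k : 𝒦) x x', κ.kap (star k) x x' = conj (κ.kap k x' x))
    (h : StabRep (symOp κ hT hw) 𝒱)
    (hf₁ : ∀ i ∈ t₁, s₁ i ∈ fullS (PG F) D 𝒦) (hf₂ : ∀ i ∈ t₂, s₂ i ∈ fullS (PG F) D 𝒦)
    (hk₁ : ∀ f : autL2 (PG F) ((muXD (volume : Measure (Xi F)) D).withDensity w),
      (f : Lp ℂ 2 ((muXD (volume : Measure (Xi F)) D).withDensity w)) ∈ 𝒱ᗮ →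
        ContinuousLinearMap.adjoint (linS κ hT hw t₁ c₁ s₁) f = 0)
    (hk₂ : ∀ f : autL2 (PG F) ((muXD (volume : Measure (Xi F)) D).withDensity w),
      (f : Lp ℂ 2 ((muXD (volume : Measure (Xi F)) D).withDensity w)) ∈ 𝒱ᗮ →
        linS κ hT hw t₂ c₂ s₂ f = 0)
    (hs₁ : IsHS (homS h t₁ c₁ s₁)) (hs₂ : IsHS (homS h t₂ c₂ s₂))
    {ι : Type*} (b : HilbertBasis ι ℂ 𝒱) :
    HasSum (fun i => ⟪b i, (homS h t₁ c₁ s₁ * homS h t₂ c₂ s₂) (b i)⟫_ℂ)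
      (∫ z, aut (PG F) (kerS κ t₁ c₁ s₁ t₂ c₂ s₂) z z ∂(muZ F D).withDensity w) := by
  have hfin : IsFiniteMeasure ((muXD (volume : Measure (Xi F)) D).withDensity w) :=
    isFiniteMeasure_weight F D hw
  have := secondCountable_Lp ((muXD (volume : Measure (Xi F)) D).withDensity w)
  have hid : ∀ f, (TauHyp.refl (G := PG F) (μ := muXD (volume : Measure (Xi F)) D)).tauL hw f =
      f := fun f => by
    rw [TauHyp.tauL_refl]
    rfl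
  have key := h.hasSum_tr hstar (fun k a => nker_sker κ hb hs k a) TauHyp.refl
    (fun v hv => by rw [hid]; exact hv) (τV := 1) (fun v => ?_) hf₁ hf₂ hk₁ hk₂ hs₁ hs₂ b
  · simp only [mul_one] at key
    exact key
  · exact (congrArg Subtype.val (hid ⟨v, h.le v.2⟩)).symm

/-! ### Convergence of the geometric side -/

omit [StarMul 𝒦] in
/-- Absolute convergence of the twisted diagonal of a symbol, from regularity. -/
theorem lintegral_skerS_ne_top (hw : IsWeight (PG F) w)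
    (hb : ∀ k, ∃ M : ℝ, ∀ x x' : Xi F, ‖κ.kap k x x'‖ ≤ M)
    (hs : ∀ k, ∃ R : ℝ, ∀ x x' : Xi F, κ.kap k x x' ≠ 0 → ∀ w, cu (x w) (x' w) ≤ R)
    (s : Symb (PG F) D 𝒦) (τ : F ≃+* F) {τD : D → D}
    (hτD : ∀ (g : PG F) d, τD (g • d) = PG.tau τ g • τD d)
    (hreg : ∀ (g : GL (Fin 2) F) (z : Xi F × D), skerS κ s z (g • tauZ τ τD z) ≠ 0 →
      g 1 0 ≠ 0) :
    ∫⁻ z, ∑' δ : PG F, ‖skerS κ s z (δ • tauZ τ τD z)‖ₑ ∂(muZ F D).withDensity w ≠ ∞ := by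
  obtain ⟨x, a⟩ := s
  induction x using WithOne.recOneCoe with
  | one =>
    have h0 : ∀ z z' : Xi F × D, skerS κ (((1 : WithOne 𝒦), a) : Symb (PG F) D 𝒦) z z' = 0 :=
      fun z z' => rfl
    simp only [h0, enorm_zero, tsum_zero, lintegral_zero]
    exact ENNReal.zero_ne_top
  | coe k =>
    simp only [skerS_coe] at hreg ⊢
    obtain ⟨M, hM⟩ := hb k
    obtain ⟨U, hU⟩ := hs k
    obtain ⟨C', hC'⟩ := HK.exists_discHyp (exists_orbits' F D) a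
    refine Dict.lintegral_twist_ne_top hw (U := max 1 U) (lt_max_of_lt_left one_pos)
      (Nb := fun d => (a.finite_row d).toFinset) (fun z z' h => ⟨fun w => ?_, ?_⟩)
      (B := ENNReal.ofReal M * C') (ENNReal.mul_ne_top ENNReal.ofReal_ne_top hC'.ne_top)
      (fun z z' => ?_) (fun g z z' => ?_) τ hτD hreg
    · exact (hU _ _ (left_ne_zero_of_mul h) w).trans (le_max_right _ _)
    · rw [Set.Finite.mem_toFinset]
      exact right_ne_zero_of_mul h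
    · unfold sker
      rw [enorm_mul]
      have h1 : ‖κ.kap k z.1 z'.1‖ₑ ≤ ENNReal.ofReal M := by
        rw [← ofReal_norm]
        exact ENNReal.ofReal_le_ofReal (hM _ _)
      have h2 : ‖a.ker z.2 z'.2‖ₑ ≤ C' :=
        (ENNReal.le_tsum (f := fun d' => ‖a.ker z.2 d'‖ₑ) z'.2).trans (hC'.row z.2)
      gcongr
    · exact (nker_sker κ hb hs k a).inv g z z'

/-- **The geometric side**, twisted by `τ`: linearity, from regularity. -/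
theorem integral_kerS_tau (hw : IsWeight (PG F) w)
    (hb : ∀ k, ∃ M : ℝ, ∀ x x' : Xi F, ‖κ.kap k x x'‖ ≤ M)
    (hs : ∀ k, ∃ R : ℝ, ∀ x x' : Xi F, κ.kap k x x' ≠ 0 → ∀ w, cu (x w) (x' w) ≤ R)
    {τ : F ≃+* F} {tD : D ≃ D} (htD : ∀ (g : PG F) d, tD (g • d) = PG.tau τ g • tD d)
    (hreg : ∀ i ∈ t₁, ∀ j ∈ t₂, ∀ (g : GL (Fin 2) F) (z : Xi F × D),
      skerS κ (s₁ i * s₂ j) z (g • tauZ τ tD z) ≠ 0 → g 1 0 ≠ 0) :
    ∫ z, aut (PG F) (kerS κ t₁ c₁ s₁ t₂ c₂ s₂) z (tauZ τ tD z) ∂(muZ F D).withDensity w =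
      ∑ i ∈ t₁, ∑ j ∈ t₂, c₁ i * c₂ j *
        ∫ z, aut (PG F) (skerS κ (s₁ i * s₂ j)) z (tauZ τ tD z) ∂(muZ F D).withDensity w :=
  integral_kerS (mX := (volume : Measure (Xi F))) (fun k a => nker_sker κ hb hs k a)
    (tauZE τ tD).measurable t₁ c₁ s₁ t₂ c₂ s₂ fun i hi j hj =>
      lintegral_skerS_ne_top hw hb hs (s₁ i * s₂ j) τ htD (hreg i hi j hj)

/-- **The geometric side**, untwisted. -/
theorem integral_kerS_id (hw : IsWeight (PG F) w)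
    (hb : ∀ k, ∃ M : ℝ, ∀ x x' : Xi F, ‖κ.kap k x x'‖ ≤ M)
    (hs : ∀ k, ∃ R : ℝ, ∀ x x' : Xi F, κ.kap k x x' ≠ 0 → ∀ w, cu (x w) (x' w) ≤ R)
    (hreg : ∀ i ∈ t₁, ∀ j ∈ t₂, ∀ (g : GL (Fin 2) F) (z : Xi F × D),
      skerS κ (s₁ i * s₂ j) z (g • z) ≠ 0 → g 1 0 ≠ 0) :
    ∫ z, aut (PG F) (kerS κ t₁ c₁ s₁ t₂ c₂ s₂) z z ∂(muZ F D).withDensity w =
      ∑ i ∈ t₁, ∑ j ∈ t₂, c₁ i * c₂ j *
        ∫ z, aut (PG F) (skerS κ (s₁ i * s₂ j)) z z ∂(muZ F D).withDensity w := by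
  have hid : ∀ z : Xi F × D, tauZ (RingEquiv.refl F) (Equiv.refl D) z = z := fun z =>
    Prod.ext (Xi.tau_refl z.1) rfl
  have key := integral_kerS_tau (κ := κ) (t₁ := t₁) (t₂ := t₂) (c₁ := c₁) (c₂ := c₂) (s₁ := s₁)
    (s₂ := s₂) hw hb hs (τ := RingEquiv.refl F) (tD := Equiv.refl D) (fun g d => by
      obtain ⟨g, rfl⟩ := QuotientGroup.mk_surjective g
      have : PG.tau (RingEquiv.refl F) (QuotientGroup.mk g : PG F) = QuotientGroup.mk g := by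
        rw [PG.tau_mk]
        rfl
      rw [this]
      rfl) (fun i hi j hj g z hz => hreg i hi j hj g z (by rwa [hid] at hz))
  simp only [hid] at key
  exact key

end Fermat.Agent.LT.Sttf

end
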